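import Fermat.Agent.Lowering.P3.Levels.Comp
import Fermat.Agent.DeligneSerre.TorsionTarget

/-!
# The fields of `±Γ(n) ∩ Γ₀(l)` and `±(Γ(n) ∩ Γ₁(l))` in `q_n`, and their involution
-/

set_option autoImplicit false
set_option linter.unusedSectionVars false
set_option linter.style.haveILetI false
set_option maxHeartbeats 1600000
set_option synthInstance.maxHeartbeats 100000

noncomputable section

open UpperHalfPlane hiding I I_re I_im
open Filter Topology Complex Function FLTAgent.ModEq FLTAgent.GoodModel ModularCurve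
open scoped MatrixGroups IntermediateField

namespace FLTAgent.Lowering.P3.Levels

open FLTAgent.DeligneSerre FLTAgent.Carayol

local notation "LL" => AlgebraicClosure ℚ

/-! ### The groups -/

/-- `±Γ(n) ∩ Γ₀(l)`. -/
def grp0 (n l : ℕ) : Subgroup SL(2, ℤ) := pmGamma n ⊓ CongruenceSubgroup.Gamma0 l

/-- `±Γ(n) ∩ ±Γ₁(l)`. -/
def grp1 (n l : ℕ) : Subgroup SL(2, ℤ) := pmGamma n ⊓ pmGamma1 l

theorem grp1_le_grp0 (n l : ℕ) : grp1 n l ≤ grp0 n l :=
  inf_le_inf le_rfl (pmGamma1_le_Gamma0 l)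

theorem mem_pmGamma1_iff {l : ℕ} {g : SL(2, ℤ)} :
    g ∈ pmGamma1 l ↔ ((g 1 0 : ℤ) : ZMod l) = 0 ∧
      (((g 1 1 : ℤ) : ZMod l) = 1 ∨ ((g 1 1 : ℤ) : ZMod l) = -1) := by
  constructor
  · intro hg
    refine ⟨CongruenceSubgroup.Gamma0_mem.mp (pmGamma1_le_Gamma0 l hg), ?_⟩
    rcases Tors.mem_pm hg with h | h
    · exact Or.inl ((CongruenceSubgroup.Gamma1_mem l g).mp h).2.1
    · refine Or.inr (neg_injective ?_)
      rw [neg_neg]
      simpa using ((CongruenceSubgroup.Gamma1_mem l (-g)).mp h).2.1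
  · rintro ⟨h0, h1⟩
    have hdet : ((g 0 0 : ℤ) : ZMod l) * ((g 1 1 : ℤ) : ZMod l) = 1 := by
      have hd := congrArg (fun z : ℤ => (z : ZMod l)) (Matrix.det_fin_two (g : Matrix (Fin 2) (Fin 2) ℤ))
      rw [g.det_coe] at hd
      push_cast at hd
      rw [h0, mul_zero, sub_zero] at hd
      exact hd.symm
    rcases h1 with h1 | h1
    · refine Subgroup.mem_sup_left ((CongruenceSubgroup.Gamma1_mem l g).mpr ⟨?_, h1, h0⟩)
      rwa [h1, mul_one] at hdet
    · have hm : -g ∈ CongruenceSubgroup.Gamma1 l := by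
        refine (CongruenceSubgroup.Gamma1_mem l (-g)).mpr ⟨?_, by simp [h1], by simp [h0]⟩
        rw [h1, mul_neg, mul_one] at hdet
        simpa using hdet
      have h2 := mul_mem (Subgroup.mem_sup_left (T := Subgroup.zpowers (-1 : SL(2, ℤ))) hm)
        (Subgroup.mem_sup_right (S := CongruenceSubgroup.Gamma1 l)
          (Subgroup.mem_zpowers (-1 : SL(2, ℤ))))
      rwa [mul_neg, mul_one, neg_neg] at h2

theorem pmGamma_le_grp1 {M n l : ℕ} (hn : n ∣ M) (hl : l ∣ M) : pmGamma M ≤ grp1 n l :=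
  le_inf (pmGamma_mono hn) ((pmGamma_mono hl).trans (pmGamma_le_pmGamma1 l))

theorem neg_one_mem_grp1 (n l : ℕ) : (-1 : SL(2, ℤ)) ∈ grp1 n l :=
  pmGamma_le_grp1 (dvd_mul_right n l) (dvd_mul_left l n) (Or.inr (by rw [neg_neg]; exact one_mem _))

theorem wconj_aux {a b c d l τ : ℂ} (hl : l ≠ 0) (hτ : τ ≠ 0) (hden : l * c * τ + d ≠ 0)
    (hN : a * τ + b ≠ 0) : (-(l * ((a * τ + b) / (l * c * τ + d))))⁻¹ =
      (d * (-(l * τ))⁻¹ + -c) / (-(l * b) * (-(l * τ))⁻¹ + a) := by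
  have e1 : -(l * b) * (-(l * τ))⁻¹ + a = (a * τ + b) / τ := by field_simp; ring
  have e2 : d * (-(l * τ))⁻¹ + -c = -((l * c * τ + d) / (l * τ)) := by field_simp; ring
  rw [e1, e2]
  field_simp

/-- Conjugation by `(0 -1; l 0)`; it exchanges the diagonal entries. -/
theorem exists_wconj {n l : ℕ} [NeZero l] (hnl : n.Coprime l) {H : Subgroup SL(2, ℤ)}
    (hH : H = grp0 n l ∨ H = grp1 n l) {g : SL(2, ℤ)} (hg : g ∈ H) :
    ∃ g' ∈ H, g' 1 1 = g 0 0 ∧ ∀ τ : ℍ, ModularGroup.S • affPt l 0 1 (g • τ) =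
      g' • ModularGroup.S • affPt l 0 1 τ := by
  have hg0 : g ∈ grp0 n l := by rcases hH with rfl | rfl <;> [exact hg; exact grp1_le_grp0 n l hg]
  obtain ⟨c, hc⟩ : (l : ℤ) ∣ g 1 0 :=
    (ZMod.intCast_zmod_eq_zero_iff_dvd _ _).mp (CongruenceSubgroup.Gamma0_mem.mp hg0.2)
  have hdet := Matrix.det_fin_two (g : Matrix (Fin 2) (Fin 2) ℤ)
  rw [g.det_coe] at hdet
  let g' : SL(2, ℤ) := ⟨!![g 1 1, -c; -((l : ℤ) * g 0 1), g 0 0], by
    rw [Matrix.det_fin_two_of]; linear_combination -hdet + g 0 1 * hc⟩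
  have hlu : IsUnit ((l : ℕ) : ZMod n) := (ZMod.isUnit_iff_coprime l n).mpr hnl.symm
  have hn : g' ∈ pmGamma n := by
    rcases hg0.1 with h | h
    · left
      rw [CongruenceSubgroup.Gamma_mem] at h ⊢
      obtain ⟨h00, h01, h10, h11⟩ := h
      have hc0 : (c : ZMod n) = 0 := by
        rw [hc] at h10
        push_cast at h10
        exact hlu.mul_right_eq_zero.mp h10
      simp [g', h00, h01, h11, hc0]
    · right
      rw [CongruenceSubgroup.Gamma_mem] at h ⊢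
      simp only [Matrix.SpecialLinearGroup.coe_neg, Matrix.neg_apply, Int.cast_neg,
        neg_eq_zero] at h
      obtain ⟨h00, h01, h10, h11⟩ := h
      have hc0 : (c : ZMod n) = 0 := by
        rw [hc] at h10
        push_cast at h10
        exact hlu.mul_right_eq_zero.mp h10
      simp only [Matrix.SpecialLinearGroup.coe_neg, Matrix.neg_apply, Int.cast_neg, neg_eq_zero]
      simp [g', h00, h01, h11, hc0]
  have hl0 : ((g' 1 0 : ℤ) : ZMod l) = 0 := by simp [g']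
  refine ⟨g', ?_, rfl, fun τ => ?_⟩
  · rcases hH with rfl | rfl
    · exact ⟨hn, CongruenceSubgroup.Gamma0_mem.mpr hl0⟩
    · refine ⟨hn, mem_pmGamma1_iff.mpr ⟨hl0, ?_⟩⟩
      obtain ⟨h0, h1⟩ := mem_pmGamma1_iff.mp hg.2
      have hd := congrArg (fun z : ℤ => (z : ZMod l)) hdet
      push_cast at hd
      rw [h0, mul_zero, sub_zero] at hd
      show ((g 0 0 : ℤ) : ZMod l) = 1 ∨ ((g 0 0 : ℤ) : ZMod l) = -1
      rcases h1 with h1 | h1
      · exact Or.inl (by rw [h1, mul_one] at hd; exact hd.symm)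
      · refine Or.inr ?_
        rw [h1, mul_neg, mul_one] at hd
        rw [hd, neg_neg]
  · apply UpperHalfPlane.ext
    simp only [UpperHalfPlane.modular_S_smul, UpperHalfPlane.coe_mk, coe_affPt, coe_sl_smul']
    have hτ : (τ : ℂ) ≠ 0 := τ.ne_zero
    have hl : (l : ℂ) ≠ 0 := Nat.cast_ne_zero.mpr (NeZero.ne l)
    have hnum := den_ne_zero g τ
    have hN0 : ((g 0 0 : ℤ) : ℂ) * τ + (g 0 1 : ℤ) ≠ 0 := by
      have h := (g • τ).ne_zero
      rw [coe_sl_smul'] at h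
      exact (div_ne_zero_iff.1 h).1
    simp only [g', Matrix.of_apply, Matrix.cons_val_zero, Matrix.cons_val_one]
    rw [show ((g 1 0 : ℤ) : ℂ) = (l : ℂ) * (c : ℂ) by exact_mod_cast hc] at hnum ⊢
    push_cast
    simp only [add_zero, div_one, one_div, inv_div, ← neg_div]
    exact wconj_aux hl hτ hnum hN0

/-! ### Fields -/

section Fields

variable {κ : LL →+* ℂ} {M0 N' l : ℕ} [NeZero M0] [NeZero N'] [NeZero l] [NeZero (M0 * N')]
  [NeZero (N' * l)] [NeZero (M0 * (N' * l))]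
variable (P' : Frame κ.range M0 (N' * l))

local notation "φ₀" => toLL κ
local notation "hφ₀" => toLL_surjective κ

/-- The substitution `q ↦ q^l`. -/
def iotaL (l : ℕ) [NeZero l] : LaurentSeries LL →ₐ[LL] LaurentSeries LL := substAlg (1 : LLˣ) l

@[simp] theorem iotaL_apply (x : LaurentSeries LL) : iotaL l x = qExpand LL l x := by
  show substHom (1 : LLˣ) l x = _
  rw [substHom_one]

/-- Functions of `q_n` whose substitution is fixed by `H`. -/
def fldQ (H : Subgroup SL(2, ℤ)) : IntermediateField LL (LaurentSeries LL) :=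
  ((P'.fixedFld φ₀ hφ₀ H).map (P'.fld φ₀).val).comap (iotaL l)

variable {P'}

theorem mem_fldQ {H : Subgroup SL(2, ℤ)} {x : LaurentSeries LL} :
    x ∈ fldQ P' H ↔ ∃ z : P'.fld φ₀, z ∈ P'.fixedFld φ₀ hφ₀ H ∧
      (z : LaurentSeries LL) = qExpand LL l x := by
  constructor
  · rintro ⟨z, hz, hzx⟩
    exact ⟨z, hz, hzx.trans (iotaL_apply x)⟩
  · rintro ⟨z, hz, hzx⟩
    exact ⟨z, hz, hzx.trans (iotaL_apply x).symm⟩

theorem fldQ_mono {H H' : Subgroup SL(2, ℤ)} (h : H ≤ H') : fldQ P' H' ≤ fldQ P' H := fun x hx => by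
  obtain ⟨z, hz, hzx⟩ := mem_fldQ.1 hx
  exact mem_fldQ.2 ⟨z, (P'.mem_fixedFld φ₀ hφ₀).2 fun g hg =>
    (P'.mem_fixedFld φ₀ hφ₀).1 hz g (h hg), hzx⟩

theorem iotaL_mem {H : Subgroup SL(2, ℤ)} (x : fldQ P' H) : iotaL l x ∈ P'.fld φ₀ := by
  obtain ⟨z, -, hzx⟩ := mem_fldQ.1 x.2
  rw [iotaL_apply, ← hzx]
  exact z.2

/-- The substitution, into the field of full level. -/
def up (H : Subgroup SL(2, ℤ)) : fldQ P' H →ₐ[LL] P'.fld φ₀ :=
  ((iotaL l).comp (fldQ P' H).val).codRestrict (P'.fld φ₀).toSubalgebra iotaL_mem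

theorem coe_up {H : Subgroup SL(2, ℤ)} (x : fldQ P' H) :
    (up H x : LaurentSeries LL) = qExpand LL l (x : LaurentSeries LL) :=
  iotaL_apply (x : LaurentSeries LL)

theorem up_mem {H : Subgroup SL(2, ℤ)} (x : fldQ P' H) : up H x ∈ P'.fixedFld φ₀ hφ₀ H := by
  obtain ⟨z, hz, hzx⟩ := mem_fldQ.1 x.2
  rwa [show up H x = z from Subtype.ext ((coe_up x).trans hzx.symm)]

theorem psi_up_of_mem {H : Subgroup SL(2, ℤ)} {g : SL(2, ℤ)} (hg : g ∈ H) (x : fldQ P' H) :
    P'.psi φ₀ hφ₀ g (up H x) = up H x := by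
  have h := (P'.mem_fixedFld φ₀ hφ₀).1 (up_mem x) g⁻¹ (inv_mem hg)
  rwa [P'.act_apply, inv_inv] at h

/-- A fixed element is a quotient of fixed functions. -/
theorem exists_frac_inv {H : Subgroup SL(2, ℤ)} (hle : pmGamma (M0 * (N' * l)) ≤ H)
    {z : P'.fld φ₀} (hz : ∀ g ∈ H, P'.psi φ₀ hφ₀ g z = z) :
    ∃ a b : modRing κ.range (M0 * (N' * l)), (∀ g ∈ H, transl g a = a) ∧
      (∀ g ∈ H, transl g b = b) ∧ P'.redF φ₀ hφ₀ b ≠ 0 ∧
      z = P'.redF φ₀ hφ₀ a / P'.redF φ₀ hφ₀ b := by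
  classical
  obtain ⟨a, b, hb, hzab⟩ := P'.exists_frac φ₀ hφ₀ z
  haveI : Fintype (SL(2, ℤ) ⧸ pmGamma (M0 * (N' * l))) := Subgroup.fintypeQuotientOfFiniteIndex
  set Hq : Finset (SL(2, ℤ) ⧸ pmGamma (M0 * (N' * l))) :=
    Finset.univ.filter fun q => q ∈ H.map (QuotientGroup.mk' _)
  have hmem : ∀ q ∈ Hq, q.out ∈ H := fun q hq => by
    obtain ⟨h, hh, rfl⟩ := Subgroup.mem_map.1 (Finset.mem_filter.1 hq).2
    obtain ⟨k, hk⟩ := QuotientGroup.mk_out_eq_mul (pmGamma (M0 * (N' * l))) h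
    show (QuotientGroup.mk h : SL(2, ℤ) ⧸ _).out ∈ H
    rw [hk]
    exact mul_mem hh (hle k.2)
  have hout : ∀ (g : SL(2, ℤ)) (f : modRing κ.range (M0 * (N' * l))),
      transl (QuotientGroup.mk g : SL(2, ℤ) ⧸ pmGamma (M0 * (N' * l))).out f = transl g f := by
    intro g f
    obtain ⟨k, hk⟩ := QuotientGroup.mk_out_eq_mul (pmGamma (M0 * (N' * l))) g
    rw [hk, ← transl_transl, transl_of_mem_pmGamma k.2]
  set b' := ∏ q ∈ Hq, transl q.out b with hb'
  have h1 : (1 : SL(2, ℤ) ⧸ pmGamma (M0 * (N' * l))) ∈ Hq :=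
    Finset.mem_filter.2 ⟨Finset.mem_univ _, one_mem _⟩
  set a' := a * ∏ q ∈ Hq.erase 1, transl q.out b with ha'
  have hbne : P'.redF φ₀ hφ₀ b' ≠ 0 := by
    rw [hb', map_prod]
    exact Finset.prod_ne_zero_iff.2 fun q _ => P'.redF_transl_ne φ₀ hφ₀ _ hb
  have hb'' : ∀ g ∈ H, transl g b' = b' := fun g hg => by
    rw [hb', map_prod]
    refine Finset.prod_nbij (fun q => q * QuotientGroup.mk g) (fun q hq => ?_) ?_ (fun q hq => ?_)
      fun q _ => ?_
    · exact Finset.mem_filter.2 ⟨Finset.mem_univ _, mul_mem (Finset.mem_filter.1 hq).2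
        (Subgroup.mem_map_of_mem _ hg)⟩
    · exact fun q _ q' _ h => mul_right_cancel h
    · refine ⟨q * (QuotientGroup.mk g)⁻¹, Finset.mem_filter.2 ⟨Finset.mem_univ _,
        mul_mem (Finset.mem_filter.1 hq).2 (inv_mem (Subgroup.mem_map_of_mem _ hg))⟩, by simp⟩
    · rw [transl_transl]
      conv_rhs => rw [show q * QuotientGroup.mk g =
        (QuotientGroup.mk (q.out * g) : SL(2, ℤ) ⧸ pmGamma (M0 * (N' * l))) by
          rw [QuotientGroup.mk_mul, QuotientGroup.out_eq'], hout]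
  have hab : P'.redF φ₀ hφ₀ a' = z * P'.redF φ₀ hφ₀ b' := by
    rw [ha', hb', ← Finset.mul_prod_erase Hq _ h1,
      show (1 : SL(2, ℤ) ⧸ pmGamma (M0 * (N' * l))) = QuotientGroup.mk 1 from rfl, hout,
      transl_one, map_mul, map_mul, hzab]
    field_simp
  have hinj : Injective (P'.redF φ₀ hφ₀) := fun u v h =>
    serM_injective (coeffMap_injective φ₀ (toLL_injective κ) (congrArg Subtype.val h))
  refine ⟨a', b', fun g hg => hinj ?_, hb'', hbne, by rw [hab, mul_div_cancel_right₀ _ hbne]⟩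
  rw [← P'.psi_redF, hab, map_mul, hz g hg, P'.psi_redF, hb'' g hg]

/-! ### The involution -/

/-- The series of the composite with `S` and `τ ↦ l τ`. -/
def wRaw (H : Subgroup SL(2, ℤ)) : fldQ P' H →ₐ[LL] LaurentSeries LL :=
  (P'.fld φ₀).val.comp ((P'.psi φ₀ hφ₀ ModularGroup.S).comp (up H))

theorem coe_wRaw {H : Subgroup SL(2, ℤ)} (x : fldQ P' H) :
    wRaw H x = (P'.psi φ₀ hφ₀ ModularGroup.S (up H x) : LaurentSeries LL) := rfl

variable [Fact l.Prime] (hnl : (M0 * N').Coprime l)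

theorem exists_zeta (κ : LL →+* ℂ) (N : ℕ) [NeZero N] :
    ∃ ζ : (κ.range)ˣ, ((ζ : κ.range) : ℂ) = zetaN N := by
  obtain ⟨z, hz⟩ := HasEnoughRootsOfUnity.exists_primitiveRoot LL N
  obtain ⟨i, -, hi⟩ := (hz.map_of_injective κ.injective).eq_pow_of_pow_eq_one
    (ξ := (zetaN N : ℂ)) (by
      rw [← Units.val_pow_eq_pow_val, (zetaN_primitive (N := N)).pow_eq_one, Units.val_one])
  have hz0 : z ≠ 0 := hz.ne_zero (NeZero.ne N)
  refine ⟨Units.map κ.rangeRestrict.toMonoidHom (Units.mk0 (z ^ i) (pow_ne_zero i hz0)), ?_⟩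
  simp [← hi]

include hnl in
/-- The composite with `S` and `τ ↦ l τ` of a function fixed by one of the two groups. -/
theorem exists_fricke {H : Subgroup SL(2, ℤ)}
    (hH : H = grp0 (M0 * N') l ∨ H = grp1 (M0 * N') l)
    {a : modRing κ.range (M0 * (N' * l))} (ha : ∀ g ∈ H, transl g a = a) :
    ∃ b : modRing κ.range (M0 * (N' * l)), (∀ g ∈ H, transl g b = b) ∧
      serM b = qExpand κ.range l (serM (transl ModularGroup.S a)) ∧
      qExpand κ.range l (serM (transl ModularGroup.S b)) = serM a ∧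
      ∀ τ : ℍ, (b : ℍ → ℂ) τ = (a : ℍ → ℂ) (ModularGroup.S • affPt l 0 1 τ) := by
  haveI : NeZero (M0 * (N' * l) * l) := ⟨Nat.mul_ne_zero (NeZero.ne _) (NeZero.ne l)⟩
  obtain ⟨ζ, hζ⟩ := exists_zeta κ (M0 * (N' * l) * l)
  have hle : pmGamma (M0 * (N' * l)) ≤ H := by
    have h := pmGamma_le_grp1 (M := M0 * (N' * l)) (n := M0 * N') (l := l)
      ⟨l, by ring⟩ ⟨M0 * N', by ring⟩
    rcases hH with rfl | rfl
    · exact h.trans (grp1_le_grp0 _ _)
    · exact h
  have hinv : ∀ g ∈ H, ∀ τ : ℍ, ((transl ModularGroup.S a : modRing κ.range (M0 * (N' * l))) : ℍ → ℂ) (affPt l 0 1 (g • τ)) =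
      ((transl ModularGroup.S a : modRing κ.range (M0 * (N' * l))) : ℍ → ℂ) (affPt l 0 1 τ) := fun g hg τ => by
    obtain ⟨g', hg', -, hgτ⟩ := exists_wconj hnl hH hg
    rw [transl_apply, transl_apply, hgτ, ← transl_apply, ha g' hg']
  have hmem : (fun τ => ((transl ModularGroup.S a : modRing κ.range (M0 * (N' * l))) : ℍ → ℂ) (affPt l 0 1 τ)) ∈ modRing κ.range (M0 * (N' * l)) :=
    compMul_mem (dvd_mul_right _ l) (e := l) rfl ζ hζ (transl ModularGroup.S a).2.1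
      fun g hg τ => hinv g (hle (Or.inl hg)) τ
  refine ⟨⟨_, hmem⟩, fun g hg => Subtype.ext (funext fun τ => ?_),
    serM_eq (sPairs_affPt_mul l (serM_spec (transl ModularGroup.S a))), ?_, fun τ => ?_⟩
  · rw [transl_apply]
    exact hinv g hg τ
  · haveI : NeZero (1 * 1) := ⟨one_ne_zero⟩
    set B : modRing κ.range (M0 * (N' * l)) := ⟨_, hmem⟩
    have h1 := sPairs_refine (k := l) (n := M0 * (N' * l) * l) rfl
      (serM_spec (transl ModularGroup.S B))
    have h2 := sPairs_comp_affPt ζ hζ 1 0 l (M0 * (N' * l)) 1 (by ring) (serM_spec a)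
    have hfun : (transl ModularGroup.S B : ℍ → ℂ) = fun τ => (a : ℍ → ℂ) (affPt 1 0 l τ) := by
      funext τ
      rw [transl_apply]
      show ((transl ModularGroup.S a : modRing κ.range (M0 * (N' * l))) : ℍ → ℂ) _ = _
      rw [transl_apply]
      refine congrArg (a : ℍ → ℂ) (UpperHalfPlane.ext ?_)
      simp only [UpperHalfPlane.modular_S_smul, UpperHalfPlane.coe_mk, coe_affPt]
      have hτ : (τ : ℂ) ≠ 0 := τ.ne_zero
      have hl : (l : ℂ) ≠ 0 := Nat.cast_ne_zero.mpr (NeZero.ne l)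
      push_cast
      field_simp
      ring_nf
      field_simp
    rw [hfun] at h1
    rw [sPairs_unique h1 h2]
    simp [substHom_apply, twist_one, qExpand_one_apply]
  · show ((transl ModularGroup.S a : modRing κ.range (M0 * (N' * l))) : ℍ → ℂ) _ = _
    rw [transl_apply]

include hnl in
theorem wRaw_mem {H : Subgroup SL(2, ℤ)} (hH : H = grp0 (M0 * N') l ∨ H = grp1 (M0 * N') l)
    (x : fldQ P' H) : wRaw H x ∈ fldQ P' H ∧
      ∀ z : P'.fld φ₀, (z : LaurentSeries LL) = qExpand LL l (wRaw H x) →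
        qExpand LL l (P'.psi φ₀ hφ₀ ModularGroup.S z : LaurentSeries LL) =
          qExpand LL l (x : LaurentSeries LL) := by
  have hle : pmGamma (M0 * (N' * l)) ≤ H := by
    have h := pmGamma_le_grp1 (M := M0 * (N' * l)) (n := M0 * N') (l := l)
      ⟨l, by ring⟩ ⟨M0 * N', by ring⟩
    rcases hH with rfl | rfl
    · exact h.trans (grp1_le_grp0 _ _)
    · exact h
  obtain ⟨a, b, ha, hb, hb0, hab⟩ := exists_frac_inv hle fun g hg => psi_up_of_mem hg x
  obtain ⟨a', ha', hsa, hsa', -⟩ := exists_fricke hnl hH ha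
  obtain ⟨b', hb', hsb, hsb', -⟩ := exists_fricke hnl hH hb
  have hser : ∀ {f f' : modRing κ.range (M0 * (N' * l))},
      serM f' = qExpand κ.range l (serM f) →
      (P'.redF φ₀ hφ₀ f' : LaurentSeries LL) =
        qExpand LL l (P'.redF φ₀ hφ₀ f : LaurentSeries LL) := fun h => by
    rw [P'.coe_redF, P'.coe_redF, red, RingHom.comp_apply, RingHom.comp_apply, h, coeffMap_qExpand]
  have hz : ((P'.redF φ₀ hφ₀ a' / P'.redF φ₀ hφ₀ b' : P'.fld φ₀) : LaurentSeries LL) =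
      qExpand LL l (wRaw H x) := by
    rw [coe_wRaw, hab, map_div₀, P'.psi_redF, P'.psi_redF, IntermediateField.coe_div,
      IntermediateField.coe_div, hser hsa, hser hsb, map_div₀]
  refine ⟨mem_fldQ.2 ⟨_, (P'.mem_fixedFld φ₀ hφ₀).2 fun g hg => ?_, hz⟩, fun z hzx => ?_⟩
  · rw [P'.act_apply, map_div₀, P'.psi_redF, P'.psi_redF, ha' _ (inv_mem hg),
      hb' _ (inv_mem hg)]
  · rw [show z = P'.redF φ₀ hφ₀ a' / P'.redF φ₀ hφ₀ b' from Subtype.ext (hzx.trans hz.symm),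
      ← coe_up, hab, map_div₀, P'.psi_redF, P'.psi_redF, IntermediateField.coe_div,
      IntermediateField.coe_div, map_div₀, ← hser hsa'.symm, ← hser hsb'.symm]

/-- The involution. -/
def wInv {H : Subgroup SL(2, ℤ)} (hH : H = grp0 (M0 * N') l ∨ H = grp1 (M0 * N') l) :
    fldQ P' H →ₐ[LL] fldQ P' H :=
  (wRaw H).codRestrict (fldQ P' H).toSubalgebra fun x => (wRaw_mem hnl hH x).1

theorem coe_wInv {H : Subgroup SL(2, ℤ)} (hH : H = grp0 (M0 * N') l ∨ H = grp1 (M0 * N') l)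
    (x : fldQ P' H) : (wInv hnl hH x : LaurentSeries LL) =
      (P'.psi φ₀ hφ₀ ModularGroup.S (up H x) : LaurentSeries LL) := rfl

theorem wInv_wInv {H : Subgroup SL(2, ℤ)} (hH : H = grp0 (M0 * N') l ∨ H = grp1 (M0 * N') l)
    (x : fldQ P' H) : wInv hnl hH (wInv hnl hH x) = x :=
  Subtype.ext (qExpand_injective l
    ((wRaw_mem hnl hH x).2 (up H (wInv hnl hH x)) (coe_up _)))

end Fields

end FLTAgent.Lowering.P3.Levels
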