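import Fermat.Agent.DeligneSerre.Smooth.Descend
import Fermat.Agent.Lowering.P3.Levels.Setup

/-!
# The auxiliary levels attached to a level and a prime dividing it exactly
-/

set_option autoImplicit false
set_option linter.unusedSectionVars false
set_option linter.style.haveILetI false

noncomputable section

open FLTAgent.ModEq FLTAgent.GoodModel

namespace FLTAgent.Lowering.P3.Levels

open FLTAgent.DeligneSerre

local notation "LL" => AlgebraicClosure ℚ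

theorem exists_decomp {M l : ℕ} [NeZero M] (hA : AuxLevel M) (hl : l.Prime) (hlM : l ∣ M)
    (hl2 : ¬ l ^ 2 ∣ M) : ∃ M0 N' : ℕ, (M0 = 2 ∨ M0 = 3) ∧ M = M0 * (N' * l) ∧
      3 ≤ M0 * N' ∧ (M0 * N').Coprime l := by
  obtain ⟨M0, hM, hsq⟩ : ∃ M0, (M0 = 2 ∨ M0 = 3) ∧ M0 * M0 ∣ M := by
    rcases hA with h | h
    · exact ⟨2, Or.inl rfl, by simpa using h⟩
    · exact ⟨3, Or.inr rfl, by simpa using h⟩
  have hM0 : M0.Prime := by rcases hM with rfl | rfl <;> norm_num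
  have hne : l ≠ M0 := fun h => hl2 (by rw [h, sq]; exact hsq)
  have hcop : Nat.Coprime (M0 * M0) l :=
    Nat.Coprime.mul_left ((Nat.coprime_primes hM0 hl).2 hne.symm)
      ((Nat.coprime_primes hM0 hl).2 hne.symm)
  obtain ⟨K, hK⟩ := hcop.mul_dvd_of_dvd_of_dvd hsq hlM
  refine ⟨M0, M0 * K, hM, by rw [hK]; ring, ?_, ?_⟩
  · have hK0 : K ≠ 0 := fun h => NeZero.ne M (by rw [hK, h, mul_zero])
    have : 1 ≤ K := Nat.pos_of_ne_zero hK0
    rcases hM with rfl | rfl <;> omega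
  · refine ((hl.coprime_iff_not_dvd).2 fun h => hl2 ?_).symm
    obtain ⟨a, ha⟩ := h
    exact ⟨a, by rw [hK, sq]; linear_combination (l : ℕ) * ha⟩

theorem exists_topFrame (κ : LL →+* ℂ) {M0 K : ℕ} [NeZero M0] [NeZero K] [NeZero (M0 * K)]
    (hM : M0 = 2 ∨ M0 = 3) (hn : 3 ≤ M0 * K) : Nonempty (Frame κ.range M0 K) := by
  obtain ⟨ζ, hζ⟩ := exists_zeta κ (M0 * K)
  have hu : IsUnit ((M0 * K : ℕ) : κ.range) := by
    rw [← map_natCast κ.rangeRestrict]
    exact IsUnit.map _ (Ne.isUnit (Nat.cast_ne_zero.2 (NeZero.ne (M0 * K))))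
  obtain ⟨C⟩ := nonempty_coordinate ζ hM rfl hζ hu
  exact ⟨⟨hM, hn, ζ, hζ, hu, C⟩⟩

end FLTAgent.Lowering.P3.Levels
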