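import Fermat.Agent.Lowering.P3.Levels.Galois
import Fermat.Agent.BadRed.Galois
import Fermat.Agent.DeligneSerre.Galois.Series

/-!
# Inertia elements on the two sheets
-/

set_option autoImplicit false
set_option linter.unusedSectionVars false
set_option linter.style.haveILetI false
set_option maxHeartbeats 1600000
set_option synthInstance.maxHeartbeats 400000

noncomputable section

open UpperHalfPlane hiding I I_re I_im
open Filter Topology Complex Function FLTAgent.ModEq FLTAgent.GoodModel ModularCurve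
open AlgebraicCurve FLTAgent.Curves IsLocalRing
open FLTAgent.Specialization (laurentReduction)
open scoped MatrixGroups IntermediateField

namespace FLTAgent.Lowering.P3.Levels

open FLTAgent.DeligneSerre FLTAgent.BadRed

local notation "LL" => AlgebraicClosure ℚ
local notation "GG" => (AlgebraicClosure ℚ ≃ₐ[ℚ] AlgebraicClosure ℚ)

variable {κ : LL →+* ℂ} {M0 N' l : ℕ} [NeZero M0] [NeZero N'] [NeZero l] [NeZero (M0 * N')]
  [NeZero (N' * l)] [NeZero (M0 * (N' * l))] {V : ValuationSubring LL}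

/-- Inertia does not change residues. -/
theorem res_inertia {E : IntermediateField LL (LaurentSeries LL)} {σ : GG}
    (hσ : σ ∈ V.inertiaSubgroupIn ℚ) {f f' : E} {g : LaurentSeries (ResidueField V)}
    (hf : (f' : LaurentSeries LL) = coeffMap (σ : LL →+* LL) (f : LaurentSeries LL))
    (h : (laurentReduction (residue V) E).Res f g) :
    (laurentReduction (residue V) E).Res f' g := by
  obtain ⟨hd, hred⟩ := residue_decHom_inertia V hσ
  exact laurentReduction_map (φA := coeffMap (decHom V hd)) (φL := coeffMap (σ : LL →+* LL))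
    (φk := RingHom.id _) (fun y => (coeffMap_decHom V hd y).symm)
    (fun y => by rw [coeffMap_coeffMap, hred]; rfl) h hf

/-- Inertia fixes the roots of unity of order prime to `l`. -/
theorem cycPow_modEq_one (hl : l.Prime) (hV : V.LiesOverPrime l) (hnl : (M0 * N').Coprime l)
    {P' : Frame κ.range M0 (N' * l)} {σ : GG} (hσ : σ ∈ V.inertiaSubgroupIn ℚ) {c : ℤ}
    (hc : CycPow P' σ c) : ((c : ℤ) : ZMod (M0 * N')) = 1 := by
  have hndvd : ¬ l ∣ M0 * N' := hl.coprime_iff_not_dvd.1 hnl.symm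
  have hη : IsPrimitiveRoot (topRoot P' ^ l) (M0 * N') :=
    (isPrimitiveRoot_map (toLL κ) P'.ξ P'.hξ P'.hv).pow (Nat.pos_of_ne_zero (NeZero.ne _))
      (by ring)
  have h1 := congrArg Units.val hη.pow_eq_one
  rw [Units.val_pow_eq_pow_val, Units.val_one] at h1
  have h2 : Units.map ((σ : LL →+* LL) : LL →* LL) (topRoot P' ^ l) = topRoot P' ^ l :=
    Units.ext (EigenReps.inertia_fix_root hl hV hndvd h1 hσ)
  rw [map_pow, hc.map, ← zpow_natCast, ← zpow_mul, mul_comm, zpow_mul, zpow_natCast] at h2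
  have h3 : (topRoot P' ^ l) ^ (c - 1) = 1 := by rw [zpow_sub, zpow_one, h2, mul_inv_cancel]
  rw [← sub_eq_zero, ← Int.cast_one, ← Int.cast_sub, ZMod.intCast_zmod_eq_zero_iff_dvd]
  exact (hη.zpow_eq_one_iff_dvd _).1 h3

/-- The twisting element of an inertia element. -/
theorem exists_twist (hl : l.Prime) (hV : V.LiesOverPrime l) (hnl : (M0 * N').Coprime l)
    {P' : Frame κ.range M0 (N' * l)} {σ : GG} (hσ : σ ∈ V.inertiaSubgroupIn ℚ) {c : ℤ}
    (hc : CycPow P' σ c) : ∃ h : SL(2, ℤ), h ∈ grp0 (M0 * N') l ∧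
      ((h 1 1 : ℤ) : ZMod l) * (c : ZMod l) = 1 ∧
      ConjRel (M0 * (N' * l)) c ModularGroup.S (h * ModularGroup.S) := by
  obtain ⟨d, d00, d01, d10, d11⟩ := exists_diag hc.unit
  have d11' : ((d 1 1 : ℤ) : ZMod (M0 * (N' * l))) = c :=
    (ZMod.intCast_eq_intCast_iff _ _ _).mpr d11
  have hn : M0 * N' ∣ M0 * (N' * l) := ⟨l, (mul_assoc M0 N' l).symm⟩
  have hld : l ∣ M0 * (N' * l) := ⟨M0 * N', by ring⟩
  have cn := cycPow_modEq_one hl hV hnl hσ hc
  have e01 : (((d⁻¹ : SL(2, ℤ)) 0 1 : ℤ) : ZMod (M0 * (N' * l))) = 0 := by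
    simp [Matrix.SpecialLinearGroup.coe_inv, Matrix.adjugate_fin_two, d01]
  have e10 : (((d⁻¹ : SL(2, ℤ)) 1 0 : ℤ) : ZMod (M0 * (N' * l))) = 0 := by
    simp [Matrix.SpecialLinearGroup.coe_inv, Matrix.adjugate_fin_two, d10]
  have e00 : (((d⁻¹ : SL(2, ℤ)) 0 0 : ℤ) : ZMod (M0 * (N' * l))) = c := by
    simp [Matrix.SpecialLinearGroup.coe_inv, Matrix.adjugate_fin_two, d11']
  have e11 : (((d⁻¹ : SL(2, ℤ)) 1 1 : ℤ) : ZMod (M0 * (N' * l))) * (c : ZMod _) = 1 := by
    simpa [Matrix.SpecialLinearGroup.coe_inv, Matrix.adjugate_fin_two] using d00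
  refine ⟨d⁻¹, ⟨Or.inl ?_, ?_⟩, ?_, ?_⟩
  · have f := fun {i j} (v : ZMod (M0 * (N' * l)))
      (e : (((d⁻¹ : SL(2, ℤ)) i j : ℤ) : ZMod (M0 * (N' * l))) = v) =>
        congrArg (ZMod.castHom hn (ZMod (M0 * N'))) e
    rw [CongruenceSubgroup.Gamma_mem]
    refine ⟨?_, ?_, ?_, ?_⟩
    · simpa [cn] using f _ e00
    · simpa using f _ e01
    · simpa using f _ e10
    · have e := congrArg (ZMod.castHom hn (ZMod (M0 * N'))) e11
      rw [map_mul, map_intCast, map_intCast, map_one, cn, mul_one] at e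
      exact e
  · refine CongruenceSubgroup.Gamma0_mem.mpr ?_
    simpa using congrArg (ZMod.castHom hld (ZMod l)) e10
  · have e := congrArg (ZMod.castHom hld (ZMod l)) e11
    rwa [map_mul, map_intCast, map_intCast, map_one] at e
  · constructor <;>
      rw [Matrix.SpecialLinearGroup.coe_mul, ModularGroup.coe_S] <;>
      simp only [Matrix.mul_apply, Fin.sum_univ_two, Matrix.of_apply, Matrix.cons_val_zero,
        Matrix.cons_val_one, mul_zero, zero_add, add_zero, mul_one, mul_neg, Int.cast_neg,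
        Int.cast_zero, Int.cast_one, e00, e01, e10, neg_zero]
    exact (mul_comm _ _).trans e11

namespace Data

variable (d : Data κ M0 N' l V) [Fact l.Prime] [IsAlgClosed (ResidueField V)]
  [CharP (ResidueField V) l] [IsFunctionField LL d.FC] [IsFunctionField LL d.F₀]
  [IsFunctionField (ResidueField V) d.Fb]

/-- An inertia element on the sheets of `F₀`. -/
def sym {σ : GG} (hσ : σ ∈ V.inertiaSubgroupIn ℚ) : d.sheet.Sym where
  σ := galQAut (P' := d.top) (Or.inl rfl) σ
  σb := RingHom.id _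
  σX := by
    refine Subtype.ext ?_
    show coeffMap (σ : LL →+* LL) (d.sheet.X : LaurentSeries LL) = (d.sheet.X : LaurentSeries LL)
    rw [d.coe_X, jAt_one_left, coeffMap_jqNModC]
  res₁ f g h := d.sheet_res₁.2 (res_inertia hσ rfl (d.sheet_res₁.1 h))
  res₂ f g h := by
    obtain ⟨c, hc⟩ := exists_cycPow d.top σ
    obtain ⟨t, ht, -, hrel⟩ := exists_twist d.hl d.above d.cop hσ hc
    have e : galQ (P' := d.top) (Or.inl rfl) σ (d.swap f) =
        d.swap (galQ (Or.inl rfl) σ f) := by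
      rw [swap, galQ_wInv (Or.inl rfl) d.cop hc ht hrel, dQ_eq_self (Or.inl rfl) ht ht]
    exact d.sheet_res₂.2 (res_inertia hσ (congrArg Subtype.val e).symm (d.sheet_res₂.1 h))

end Data

end FLTAgent.Lowering.P3.Levels
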