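import Fermat.Agent.Kronecker.Cover
import Fermat.Agent.Curves.FunctionField

/-!
# Divisibility of orders and power relations along finite extensions
-/

set_option autoImplicit false
set_option linter.unusedSectionVars false
set_option linter.style.haveILetI false

noncomputable section

namespace FLTAgent.Lowering.P3.Levels

open AlgebraicCurve FLTAgent.Curves IntermediateField

variable {K F F' : Type*} [Field K] [IsAlgClosed K] [Field F] [Field F'] [Algebra K F]
  [Algebra K F'] [IsFunctionField K F] [IsFunctionField K F']

theorem finrankAlong_pos (φ : F →ₐ[K] F') : 0 < finrankAlong K φ := by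
  letI := algebraAlong φ
  haveI := isScalarTower_along φ
  haveI : Module.Finite F F' := Kronecker.moduleFinite_of_functionField K
  exact Module.finrank_pos (R := F) (M := F')

/-- Divisibility upstairs gives divisibility of the orders of the power by the degree. -/
theorem dvd_ord_pow_finrank (φ : F →ₐ[K] F') {r : ℕ} {x : F} (hx : x ≠ 0)
    (h : ∀ w : Place K F', (r : ℤ) ∣ w.ord (φ x)) (v : Place K F) :
    (r : ℤ) ∣ v.ord (x ^ finrankAlong K φ) := by
  letI := algebraAlong φ
  haveI := isScalarTower_along φ
  haveI : Module.Finite F F' := Kronecker.moduleFinite_of_functionField K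
  haveI : HasPrincipalDivisors K F' := hasPrincipalDivisors
  have hn : x ^ finrankAlong K φ = Algebra.norm F (φ x) :=
    (Algebra.norm_algebraMap (S := F') x).symm
  have hx' : φ x ≠ 0 := (_root_.map_ne_zero φ).2 hx
  rw [hn, Kronecker.ord_norm v hx']
  exact Finset.dvd_sum fun w _ => h w

/-- A power relation upstairs gives one for the power by the degree. -/
theorem pow_finrank_eq (φ : F →ₐ[K] F') {x : F} {c : K} {h : F'} {r : ℕ}
    (hh : φ x = algebraMap K F' c * h ^ r) :
    ∃ g : F, x ^ finrankAlong K φ = algebraMap K F (c ^ finrankAlong K φ) * g ^ r := by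
  letI := algebraAlong φ
  haveI := isScalarTower_along φ
  haveI : Module.Finite F F' := Kronecker.moduleFinite_of_functionField K
  refine ⟨Algebra.norm F h, ?_⟩
  have h1 := congrArg (Algebra.norm F) hh
  rw [map_mul, map_pow] at h1
  rw [show φ x = algebraMap F F' x from rfl, Algebra.norm_algebraMap,
    IsScalarTower.algebraMap_apply K F F' c, Algebra.norm_algebraMap, ← map_pow] at h1
  exact h1

/-- Function fields may be transported. -/
theorem isFunctionField_of_algEquiv {E : Type*} [Field E] [Algebra K E] (e : F ≃ₐ[K] E) :
    IsFunctionField K E := by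
  obtain ⟨x, hx, hfd⟩ := IsFunctionField.exists_transcendental (K := K) (F := F)
  have hmap : K⟮x⟯.map e.toAlgHom = K⟮e x⟯ := by
    rw [IntermediateField.adjoin_map, Set.image_singleton]; rfl
  let e' : K⟮x⟯ ≃ₐ[K] K⟮e x⟯ :=
    (K⟮x⟯.equivMap e.toAlgHom).trans (IntermediateField.equivOfEq hmap)
  refine IsFunctionField.mk_of (e x) (fun h => hx ((isAlgebraic_algHom_iff e.toAlgHom e.injective).1 h))
    (Module.finite_of_finrank_pos ?_)
  have h := Algebra.finrank_eq_of_equiv_equiv e'.toRingEquiv e.toRingEquiv
    (RingHom.ext fun _ => rfl)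
  rw [← h]
  exact Module.finrank_pos

end FLTAgent.Lowering.P3.Levels
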