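import Fermat.Agent.DeligneSerre.Smooth.Descend
import Fermat.Agent.DeligneSerre.Galois.Classes

/-!
# Diamonds and translation
-/

set_option autoImplicit false
set_option linter.unusedSectionVars false
set_option linter.style.haveILetI false
set_option maxHeartbeats 1600000
set_option synthInstance.maxHeartbeats 200000

noncomputable section

open UpperHalfPlane hiding I I_re I_im
open Filter Topology Complex Function FLTAgent.ModEq FLTAgent.GoodModel ModularCurve
open FLTAgent.X0Fn (iota)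
open scoped MatrixGroups IntermediateField

namespace FLTAgent.Lowering.P3.Levels

open FLTAgent.DeligneSerre

local notation "LL" => AlgebraicClosure ℚ

variable {κ : LL →+* ℂ} {M0 K : ℕ} [NeZero M0] [NeZero K] [NeZero (M0 * K)]
  (P' : Frame κ.range M0 K) (D : Field1 (M0 * K) κ)

/-- The field of `Γ₁(M)` inside the field of level `±Γ(M)`. -/
def topIncl : D.F →ₐ[LL] P'.fld (toLL κ) :=
  ((substAlg (1 : LLˣ) (M0 * K)).comp D.F.val).codRestrict (P'.fld (toLL κ)).toSubalgebra
    fun w => by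
      show substHom (1 : LLˣ) (M0 * K) (w : LaurentSeries LL) ∈ P'.fld (toLL κ)
      rw [substHom_one]
      obtain ⟨w', -, hw'⟩ := exists_fixed_of_mem P' D w.2
      rw [hw']
      exact w'.2

theorem coe_topIncl (x : D.F) :
    (topIncl P' D x : LaurentSeries LL) = qExpand LL (M0 * K) (x : LaurentSeries LL) := by
  show substHom (1 : LLˣ) (M0 * K) (x : LaurentSeries LL) = _
  rw [substHom_one]

theorem topIncl_fixed {g : SL(2, ℤ)} (hg : g ∈ pmGamma1 (M0 * K)) (x : D.F) :
    P'.psi (toLL κ) (toLL_surjective κ) g (topIncl P' D x) = topIncl P' D x := by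
  obtain ⟨z, hz, hzx⟩ := exists_fixed_of_mem P' D x.2
  rw [show topIncl P' D x = z from Subtype.ext ((coe_topIncl P' D x).trans hzx)]
  have h := (P'.mem_fixedFld (toLL κ) (toLL_surjective κ)).1 hz _ (inv_mem hg)
  rwa [P'.act_apply, inv_inv] at h

theorem transl_mem_invRing {S : Subring ℂ} {M : ℕ} [NeZero M] {a : modRing S M}
    (ha : a ∈ invRing (pmGamma1 M)) {γ : SL(2, ℤ)} (hγ : γ ∈ CongruenceSubgroup.Gamma0 M) :
    transl γ a ∈ invRing (pmGamma1 M) := by
  refine mem_invRing.mpr fun g hg => ?_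
  have hconj : γ * g * γ⁻¹ ∈ pmGamma1 M := by
    rcases Tors.mem_pm hg with h | h
    · exact Subgroup.mem_sup_left (conj_mem_Gamma1 M ⟨γ, hγ⟩ ⟨g, h⟩)
    · have h1 := conj_mem_Gamma1 M ⟨γ, hγ⟩ ⟨-g, h⟩
      have h2 := mul_mem (Subgroup.mem_sup_left (T := Subgroup.zpowers (-1 : SL(2, ℤ))) h1)
        (Subgroup.mem_sup_right (S := CongruenceSubgroup.Gamma1 M)
          (Subgroup.mem_zpowers (-1 : SL(2, ℤ))))
      simpa [mul_neg, neg_mul] using h2
  rw [transl_transl, show γ * g = γ * g * γ⁻¹ * γ by rw [inv_mul_cancel_right], ← transl_transl,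
    mem_invRing.mp ha _ hconj]

theorem psi_topIncl (γ : CongruenceSubgroup.Gamma0 (M0 * K)) (x : D.F) :
    P'.psi (toLL κ) (toLL_surjective κ) (γ : SL(2, ℤ)) (topIncl P' D x) =
      topIncl P' D (D.dia γ x) := by
  set φ₀ := toLL κ
  obtain ⟨z, hz, hzx⟩ := exists_fixed_of_mem P' D x.2
  have hz' : topIncl P' D x = z := Subtype.ext ((coe_topIncl P' D x).trans hzx)
  obtain ⟨a, b, ha, hb, hb0, hab⟩ :=
    P'.exists_inv_frac φ₀ (toLL_surjective κ) (toLL_injective κ) hz
  obtain ⟨wa, hwa', hwa⟩ := exists_W1 a ha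
  obtain ⟨wb, hwb', hwb⟩ := exists_W1 b hb
  have hser : ∀ (f : modRing κ.range (M0 * K)),
      coeffMap κ (P'.redF φ₀ (toLL_surjective κ) f : LaurentSeries LL) = sIncl κ.range (serM f) :=
    fun f => by rw [P'.coe_redF, map_red_toLL]
  have hrep : Represents κ (x : LaurentSeries LL) wa wb := by
    refine ⟨fun h0 => hb0 (Subtype.ext ?_), ?_⟩
    · rw [← hwb', h0]; rfl
    · show qExpand ℂ (M0 * K) (coeffMap κ (x : LaurentSeries LL)) * _ = _
      rw [hwa, hwb, ← hser a, ← hser b, ← coeffMap_qExpand, hzx, ← map_mul]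
      exact congrArg (coeffMap κ) (congrArg Subtype.val hab).symm
  obtain ⟨a', b', ha', hb', hne, hab'⟩ := D.dia_represents γ x wa wb hrep
  obtain ⟨ua, hua', hua⟩ := exists_W1 (transl (γ : SL(2, ℤ)) a) (transl_mem_invRing ha γ.2)
  obtain ⟨ub, hub', hub⟩ := exists_W1 (transl (γ : SL(2, ℤ)) b) (transl_mem_invRing hb γ.2)
  have ea : a' = ua := Subtype.ext (funext fun τ => by rw [ha', hua', hwa', transl_apply])
  have eb : b' = ub := Subtype.ext (funext fun τ => by rw [hb', hub', hwb', transl_apply])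
  subst ea eb
  change qExpand ℂ (M0 * K) (coeffMap κ (D.dia γ x : LaurentSeries LL)) * _ = _ at hab'
  rw [hua, hub, ← hser, ← hser, ← coeffMap_qExpand, ← coe_topIncl P', ← map_mul] at hab'
  have h1 : topIncl P' D (D.dia γ x) * P'.redF φ₀ (toLL_surjective κ) (transl (γ : SL(2, ℤ)) b) =
      P'.redF φ₀ (toLL_surjective κ) (transl (γ : SL(2, ℤ)) a) :=
    Subtype.ext (coeffMap_injective κ κ.injective hab')
  have h2 := congrArg (P'.psi φ₀ (toLL_surjective κ) (γ : SL(2, ℤ))) hab
  rw [map_mul, P'.psi_redF, P'.psi_redF, ← h1, ← hz'] at h2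
  refine (mul_right_cancel₀ ?_ h2).symm
  have hinj : Injective (P'.redF φ₀ (toLL_surjective κ)) := fun u v h =>
    serM_injective (coeffMap_injective φ₀ (toLL_injective κ) (congrArg Subtype.val h))
  refine P'.redF_transl_ne φ₀ (toLL_surjective κ) _ fun h0 => hb0 (hinj ?_)
  rw [h0, map_zero]

end FLTAgent.Lowering.P3.Levels
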