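import Fermat.Agent.Lowering.P3.Levels.Galois
import Fermat.Agent.Lowering.P3.Levels.Descend
import Fermat.Agent.Lowering.P3.Levels.Diamond

/-!
# Classes fixed by diamonds at `l` as functions on the two auxiliary curves, and back
-/

set_option autoImplicit false
set_option linter.unusedSectionVars false
set_option linter.style.haveILetI false
set_option maxHeartbeats 1600000
set_option synthInstance.maxHeartbeats 200000

noncomputable section

open UpperHalfPlane hiding I I_re I_im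
open Filter Topology Complex Function FLTAgent.ModEq FLTAgent.GoodModel ModularCurve
open AlgebraicCurve FLTAgent.Curves
open scoped MatrixGroups IntermediateField

namespace FLTAgent.Lowering.P3.Levels

open FLTAgent.DeligneSerre
open FLTAgent.PeriodHecke (Hpar)

local notation "LL" => AlgebraicClosure ℚ
local notation "GG" => (AlgebraicClosure ℚ ≃ₐ[ℚ] AlgebraicClosure ℚ)

variable {κ : LL →+* ℂ} {M0 N' l : ℕ} [NeZero M0] [NeZero N'] [NeZero l] [NeZero (M0 * N')]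
  [NeZero (N' * l)] [NeZero (M0 * (N' * l))] (P' : Frame κ.range M0 (N' * l))
  {H : Subgroup SL(2, ℤ)}

local notation "φ₀" => toLL κ
local notation "hφ₀" => toLL_surjective κ

theorem isFunctionField_fldQ (hH : H = grp0 (M0 * N') l ∨ H = grp1 (M0 * N') l) :
    IsFunctionField LL (fldQ P' H) := by
  haveI := P'.isFunctionField φ₀ hφ₀
  set jE : P'.fixedFld φ₀ hφ₀ H := ⟨P'.jj φ₀ hφ₀, P'.jj_mem_fixedFld φ₀ hφ₀ H⟩
  haveI : H.FiniteIndex := Subgroup.finiteIndex_of_le (pmGamma_top_le hH)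
  haveI : IsFunctionField LL (P'.fixedFld φ₀ hφ₀ H) :=
    IsFunctionField.mk_of jE
      (fun h => P'.jj_transcendental φ₀ hφ₀ (h.algHom (P'.fixedFld φ₀ hφ₀ H).val))
      (Module.finite_of_finrank_pos (by
        rw [P'.finrank_fixedFld φ₀ hφ₀ (pmGamma_top_le hH)]
        exact Nat.pos_of_ne_zero Subgroup.FiniteIndex.index_ne_zero))
  exact isFunctionField_of_algEquiv (upEquiv hH).symm

variable (D : Field1 (M0 * (N' * l)) κ)

/-- An element of `Γ₀(M)` congruent to `(1, u)` modulo `(n, l)`. -/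
theorem exists_lower (hnl : (M0 * N').Coprime l) (u : (ZMod l)ˣ) :
    ∃ γ : CongruenceSubgroup.Gamma0 (M0 * (N' * l)),
      (((γ : SL(2, ℤ)) 1 1 : ℤ) : ZMod (M0 * N')) = 1 ∧
      (((γ : SL(2, ℤ)) 1 1 : ℤ) : ZMod l) = (u : ZMod l) := by
  set d := ((ZMod.chineseRemainder hnl).symm (1, (u : ZMod l))).val
  have hd := (ZMod.chineseRemainder hnl).apply_symm_apply (1, (u : ZMod l))
  rw [← ZMod.natCast_zmod_val ((ZMod.chineseRemainder hnl).symm (1, (u : ZMod l))), map_natCast]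
    at hd
  have h1 : (d : ZMod (M0 * N')) = 1 := congrArg Prod.fst hd
  have h2 : (d : ZMod l) = (u : ZMod l) := congrArg Prod.snd hd
  have hcop : d.Coprime (M0 * (N' * l)) := by
    rw [← mul_assoc]
    exact Nat.Coprime.mul_right ((ZMod.isUnit_iff_coprime _ _).1 (h1 ▸ isUnit_one))
      ((ZMod.isUnit_iff_coprime _ _).1 (h2 ▸ u.isUnit))
  refine ⟨gammaLower d hcop, ?_, ?_⟩ <;> rw [gammaLower_entry, Int.cast_natCast]
  exacts [h1, h2]

/-- Translation of the field of `Γ₁(M)` depends on the lower right entry up to sign. -/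
theorem psi_topIncl_congr {g g' : SL(2, ℤ)} (hg : g ∈ CongruenceSubgroup.Gamma0 (M0 * (N' * l)))
    (hg' : g' ∈ CongruenceSubgroup.Gamma0 (M0 * (N' * l)))
    (h : ((g 1 1 : ℤ) : ZMod (M0 * (N' * l))) = (g' 1 1 : ℤ) ∨
      ((g 1 1 : ℤ) : ZMod (M0 * (N' * l))) = -(g' 1 1 : ℤ)) (x : D.F) :
    P'.psi φ₀ hφ₀ g (topIncl P' D x) = P'.psi φ₀ hφ₀ g' (topIncl P' D x) := by
  have hmem : g * g'⁻¹ ∈ pmGamma1 (M0 * (N' * l)) := by
    refine mem_pmGamma1 _ (mul_mem hg (inv_mem hg')) ?_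
    have hc : ((g 1 0 : ℤ) : ZMod (M0 * (N' * l))) = 0 := CongruenceSubgroup.Gamma0_mem.mp hg
    have hc' : ((g' 1 0 : ℤ) : ZMod (M0 * (N' * l))) = 0 := CongruenceSubgroup.Gamma0_mem.mp hg'
    have hd := congrArg (fun z : ℤ => (z : ZMod (M0 * (N' * l))))
      (Matrix.det_fin_two (g' : Matrix (Fin 2) (Fin 2) ℤ))
    rw [g'.det_coe] at hd
    push_cast at hd
    rw [hc', mul_zero, sub_zero] at hd
    have e : (((g * g'⁻¹ : SL(2, ℤ)) 1 1 : ℤ) : ZMod (M0 * (N' * l))) =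
        ((g 1 1 : ℤ) : ZMod (M0 * (N' * l))) * (g' 0 0 : ℤ) := by
      simp [Matrix.SpecialLinearGroup.coe_inv, Matrix.adjugate_fin_two, Matrix.mul_apply,
        Fin.sum_univ_two, hc]
    rw [e]
    rcases h with h | h
    · exact Or.inl (by rw [h]; exact (hd.trans (mul_comm _ _)).symm)
    · exact Or.inr (by rw [h, neg_mul]; exact congrArg Neg.neg (hd.trans (mul_comm _ _)).symm)
  conv_lhs => rw [show g = g * g'⁻¹ * g' by rw [inv_mul_cancel_right]]
  rw [← P'.psi_psi, topIncl_fixed P' D hmem]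

variable {r : ℕ} [NeZero r]

theorem repN_prod (hK : KummerTheory D) {ι : Type*} (s : Finset ι) {x : ι → D.F}
    {φ : ι → Hpar (CongruenceSubgroup.Gamma1 (M0 * (N' * l))) (ZMod r)}
    (h : ∀ i ∈ s, RepN D r (x i) (φ i)) : RepN D r (∏ i ∈ s, x i) (∑ i ∈ s, φ i) := by
  classical
  induction s using Finset.induction_on with
  | empty => simpa using repN_pow hK (w := (1 : D.F)) one_ne_zero
  | insert a s ha ih =>
    rw [Finset.prod_insert ha, Finset.sum_insert ha]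
    exact (h a (Finset.mem_insert_self a s)).mul hK
      (ih fun i hi => h i (Finset.mem_insert_of_mem hi))

/-- A class fixed by the diamonds of `U` is, up to a multiple, that of a function of `H`. -/
theorem exists_transfer (hK : KummerTheory D) (hnl : (M0 * N').Coprime l)
    (hH : H = grp0 (M0 * N') l ∨ H = grp1 (M0 * N') l) (U : Subgroup (ZMod l)ˣ) [Fintype U]
    (hneg : -1 ∈ U) (hHU : ∀ h ∈ H, ∃ u ∈ U, ((h 1 1 : ℤ) : ZMod l) = (u : ZMod l))
    {φ : Hpar (CongruenceSubgroup.Gamma1 (M0 * (N' * l))) (ZMod r)}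
    (hφ : ∀ γ : CongruenceSubgroup.Gamma0 (M0 * (N' * l)),
      (((γ : SL(2, ℤ)) 1 1 : ℤ) : ZMod (M0 * N')) = 1 →
      (∃ u ∈ U, (((γ : SL(2, ℤ)) 1 1 : ℤ) : ZMod l) = (u : ZMod l)) →
      diamond (M0 * (N' * l)) γ φ = φ)
    [IsFunctionField LL (fldQ P' H)] [IsFunctionField LL (P'.fld φ₀)] :
    ∃ (f : fldQ P' H) (x : D.F), f ≠ 0 ∧
      RepN D r x ((Fintype.card U * finrankAlong LL (up H : fldQ P' H →ₐ[LL] P'.fld φ₀)) • φ) ∧
      up H f = topIncl P' D x ∧ ∀ v : Place LL (fldQ P' H), (r : ℤ) ∣ v.ord f := by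
  classical
  obtain ⟨x₀, hx₀⟩ := exists_repN_of hK φ
  choose γ hγn hγl using fun u : U => exists_lower (M0 := M0) (N' := N') hnl (u : (ZMod l)ˣ)
  set x₁ := ∏ u : U, D.dia (γ u) x₀
  have hx₁ : RepN D r x₁ (Fintype.card U • φ) := by
    have h := repN_prod D hK Finset.univ (x := fun u : U => D.dia (γ u) x₀)
      (φ := fun u => diamond (M0 * (N' * l)) (γ u) φ) fun u _ => hx₀.dia hK (γ u)
    rwa [Finset.sum_congr rfl fun u _ => hφ (γ u) (hγn u) ⟨u, u.2, hγl u⟩, Finset.sum_const,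
      Finset.card_univ] at h
  have hsum : topIncl P' D x₁ = ∏ u : U, P'.psi φ₀ hφ₀ (γ u : SL(2, ℤ)) (topIncl P' D x₀) := by
    rw [map_prod]
    exact Finset.prod_congr rfl fun u _ => (psi_topIncl P' D (γ u) x₀).symm
  have hfix : ∀ h ∈ H, P'.psi φ₀ hφ₀ h (topIncl P' D x₁) = topIncl P' D x₁ := by
    intro h hh
    have hle : H ≤ grp0 (M0 * N') l := by
      rcases hH with rfl | rfl
      · exact le_rfl
      · exact grp1_le_grp0 _ _
    obtain ⟨hpm, hΓ0⟩ := hle hh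
    obtain ⟨d, hdU, hd⟩ := hHU h hh
    obtain ⟨ε, hε, hεU, hεn⟩ : ∃ ε : ℤ, (ε = 1 ∨ ε = -1) ∧
        (∃ w ∈ U, ((ε : ℤ) : ZMod l) = (w : (ZMod l)ˣ)) ∧
        ((h 1 1 : ℤ) : ZMod (M0 * N')) = (ε : ℤ) ∧ ((h 1 0 : ℤ) : ZMod (M0 * N')) = 0 := by
      rcases hpm with hm | hm
      · obtain ⟨-, -, m10, m11⟩ := CongruenceSubgroup.Gamma_mem.mp hm
        exact ⟨1, Or.inl rfl, ⟨1, one_mem _, by simp⟩, by simpa using m11, m10⟩
      · obtain ⟨-, -, m10, m11⟩ := CongruenceSubgroup.Gamma_mem.mp hm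
        simp only [Matrix.SpecialLinearGroup.coe_neg, Matrix.neg_apply, Int.cast_neg,
          neg_eq_zero] at m10 m11
        refine ⟨-1, Or.inr rfl, ⟨-1, hneg, by simp⟩, ?_, m10⟩
        rw [← neg_neg (((h 1 1 : ℤ) : ZMod (M0 * N'))), m11, Int.cast_neg, Int.cast_one]
    obtain ⟨w, hwU, hw⟩ := hεU
    set e : U := ⟨w * d, mul_mem hwU hdU⟩
    have hM : ∀ a b : ℤ, ((a : ℤ) : ZMod (M0 * N')) = b → ((a : ℤ) : ZMod l) = b →
        ((a : ℤ) : ZMod (M0 * (N' * l))) = b := fun a b h1 h2 => by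
      rw [ZMod.intCast_eq_intCast_iff_dvd_sub] at h1 h2 ⊢
      rw [show ((M0 * (N' * l) : ℕ) : ℤ) = ((M0 * N' : ℕ) : ℤ) * (l : ℤ) by push_cast; ring]
      exact (Nat.isCoprime_iff_coprime.2 hnl).mul_dvd h1 h2
    have hh0 : h ∈ CongruenceSubgroup.Gamma0 (M0 * (N' * l)) := by
      refine CongruenceSubgroup.Gamma0_mem.mpr ?_
      simpa using hM (h 1 0) 0 (by simpa using hεn.2)
        (by simpa using CongruenceSubgroup.Gamma0_mem.mp hΓ0)
    have hkey : ∀ u : U, P'.psi φ₀ hφ₀ h (P'.psi φ₀ hφ₀ (γ u : SL(2, ℤ)) (topIncl P' D x₀)) =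
        P'.psi φ₀ hφ₀ (γ (u * e) : SL(2, ℤ)) (topIncl P' D x₀) := fun u => by
      rw [P'.psi_psi]
      refine psi_topIncl_congr P' D (mul_mem (γ u).2 hh0) (γ (u * e)).2 ?_ x₀
      have hprod : ∀ {m : ℕ}, m ∣ M0 * (N' * l) →
          ((((γ u : SL(2, ℤ)) * h) 1 1 : ℤ) : ZMod m) =
            (((γ u : SL(2, ℤ)) 1 1 : ℤ) : ZMod m) * ((h 1 1 : ℤ) : ZMod m) := fun {m} hm => by
        have h0 : (((γ u : SL(2, ℤ)) 1 0 : ℤ) : ZMod m) = 0 := by
          have := congrArg (ZMod.castHom hm (ZMod m)) (CongruenceSubgroup.Gamma0_mem.mp (γ u).2)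
          simpa using this
        simp [Matrix.mul_apply, Fin.sum_univ_two, h0]
      have a1 := hprod (m := M0 * N') ⟨l, (mul_assoc M0 N' l).symm⟩
      have a2 := hprod (m := l) ⟨M0 * N', by ring⟩
      rw [hγn, one_mul, hεn.1] at a1
      rw [hγl, hd] at a2
      have b2 : (((γ (u * e) : SL(2, ℤ)) 1 1 : ℤ) : ZMod l) =
          (u : (ZMod l)ˣ) * ((w : ZMod l) * (d : ZMod l)) := by
        rw [hγl]; simp [e, Units.val_mul]
      rcases hε with rfl | rfl
      · refine Or.inl (hM _ _ (by rw [a1, hγn, Int.cast_one]) ?_)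
        rw [a2, b2, ← hw, Int.cast_one, one_mul]
      · refine Or.inr ?_
        rw [← Int.cast_neg]
        refine hM _ _ (by rw [a1, Int.cast_neg, Int.cast_neg, hγn, Int.cast_one]) ?_
        rw [a2, Int.cast_neg, b2, ← hw, Int.cast_neg, Int.cast_one]
        ring
    rw [hsum, map_prod]
    exact Finset.prod_bij (fun u _ => u * e) (fun u _ => Finset.mem_univ _)
      (fun u _ u' _ huu => mul_right_cancel huu)
      (fun u _ => ⟨u * e⁻¹, Finset.mem_univ _, inv_mul_cancel_right u e⟩) fun u _ => hkey u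
  obtain ⟨f₁, hf₁⟩ := exists_up_of_fixed P' (T_mem hH) (z := topIncl P' D x₁)
    ((P'.mem_fixedFld φ₀ hφ₀).2 fun h hh => by rw [P'.act_apply, hfix _ (inv_mem hh)])
  have hf₁0 : f₁ ≠ 0 := fun h0 => hx₁.ne_zero ((_root_.map_eq_zero (topIncl P' D)).1 (by
    rw [← hf₁, h0, map_zero]))
  set d := finrankAlong LL (up H : fldQ P' H →ₐ[LL] P'.fld φ₀)
  refine ⟨f₁ ^ d, x₁ ^ d, pow_ne_zero _ hf₁0, ?_, by rw [map_pow, map_pow, hf₁],
    dvd_ord_pow_finrank (up H) hf₁0 fun w => ?_⟩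
  · have h := hx₁.pow hK d
    rwa [← mul_nsmul] at h
  · rw [hf₁]
    haveI := D.isFunctionField
    letI := (topIncl P' D).toRingHom.toAlgebra
    haveI : IsScalarTower LL D.F (P'.fld φ₀) :=
      IsScalarTower.of_algebraMap_eq fun a => ((topIncl P' D).commutes a).symm
    haveI : Module.Finite D.F (P'.fld φ₀) := Kronecker.moduleFinite_of_functionField LL
    rw [show topIncl P' D x₁ = algebraMap D.F (P'.fld φ₀) x₁ from rfl, w.ord_restrict]
    exact dvd_mul_of_dvd_right (hx₁.1.2 _) _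

theorem up_galQ_topIncl (hH : H = grp0 (M0 * N') l ∨ H = grp1 (M0 * N') l) (σ : GG)
    {f : fldQ P' H} {x : D.F} (h : up H f = topIncl P' D x) :
    up H (galQ hH σ f) = topIncl P' D (galF D σ x) := by
  refine Subtype.ext ?_
  have h' := congrArg Subtype.val h
  rw [coe_up, coe_topIncl] at h'
  rw [coe_up, coe_galQ, coe_topIncl, coe_galF, ← coeffMap_qExpand, ← coeffMap_qExpand, h']

theorem up_dQ_topIncl (hH : H = grp0 (M0 * N') l ∨ H = grp1 (M0 * N') l)
    (γ : CongruenceSubgroup.Gamma0 (M0 * (N' * l))) (hγ : (γ : SL(2, ℤ)) ∈ grp0 (M0 * N') l)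
    {f : fldQ P' H} {x : D.F} (h : up H f = topIncl P' D x) :
    up H (dQ hH hγ f) = topIncl P' D (D.dia γ x) := by
  rw [up_dQ, h, psi_topIncl]

/-- A power relation of a function of `H` kills a multiple of the class. -/
theorem nsmul_eq_zero_of_rel (hK : KummerTheory D) [IsFunctionField LL (P'.fld φ₀)]
    {y : D.F} {ψ : Hpar (CongruenceSubgroup.Gamma1 (M0 * (N' * l))) (ZMod r)}
    (hy : RepN D r y ψ) {c : LL} {w : P'.fld φ₀} (hc : c ≠ 0)
    (h : topIncl P' D y = algebraMap LL (P'.fld φ₀) c * w ^ r) :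
    finrankAlong LL (topIncl P' D) • ψ = 0 := by
  haveI := D.isFunctionField
  obtain ⟨g, hg⟩ := pow_finrank_eq (topIncl P' D) h
  have h1 := hy.pow hK (finrankAlong LL (topIncl P' D))
  have hg0 : g ≠ 0 := fun h0 => h1.ne_zero (by rw [hg, h0, zero_pow (NeZero.ne r), mul_zero])
  rw [hg] at h1
  exact h1.unique ((repN_pow hK hg0).smul_const hK (pow_ne_zero _ hc))

end FLTAgent.Lowering.P3.Levels
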