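import Fermat.Agent.DeligneSerre.Smooth.Descend
import Fermat.Agent.Carayol.Euler

/-!
# Composition with `τ ↦ l τ`, and lowering of periods
-/

set_option autoImplicit false
set_option linter.unusedSectionVars false
set_option maxHeartbeats 800000
set_option synthInstance.maxHeartbeats 100000

noncomputable section

open UpperHalfPlane hiding I I_re I_im
open Filter Topology Complex Function FLTAgent.ModEq FLTAgent.GoodModel ModularCurve
open scoped MatrixGroups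

namespace FLTAgent.Lowering.P3.Levels

open FLTAgent.DeligneSerre FLTAgent.Carayol

variable {S : Subring ℂ}

theorem qp_pow_mul (N l : ℕ) [NeZero N] [NeZero l] (τ : ℍ) :
    qp (N * l) τ ^ l = qp N τ := by
  have hl : (l : ℂ) ≠ 0 := Nat.cast_ne_zero.mpr (NeZero.ne l)
  have hN : (N : ℂ) ≠ 0 := Nat.cast_ne_zero.mpr (NeZero.ne N)
  rw [qp, qp, Periodic.qParam, Periodic.qParam, ← Complex.exp_nat_mul]
  congr 1
  push_cast
  field_simp

theorem hasExp_of_qExpand {N l : ℕ} [NeZero N] [NeZero l] {φ : ℍ → ℂ} {F : LaurentSeries ℂ}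
    (h : HasExp (N * l) φ (qExpand ℂ l F)) : HasExp N φ F := by
  filter_upwards [h] with τ hτ
  have hinj : Injective fun k : ℤ => (l : ℤ) * k :=
    mul_right_injective₀ (by exact_mod_cast NeZero.ne l)
  have h2 := (hinj.hasSum_iff (f := fun k : ℤ => (qExpand ℂ l F).coeff k * qp (N * l) τ ^ k)
    fun k hk => by
      rw [qExpand_coeff_of_not_dvd l F fun ⟨e, he⟩ => hk ⟨e, he.symm⟩, zero_mul]).mpr hτ
  refine h2.congr_fun fun k => ?_
  rw [Function.comp_apply, qExpand_coeff_mul, ← qp_pow_mul N l τ, ← zpow_natCast, ← zpow_mul]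

/-- A function of period `N` with an expansion in `q_{Nl}` has one in `q_N`. -/
theorem sPairs_lower {N l : ℕ} [NeZero N] [NeZero l] [NeZero (N * l)] (ζ : Sˣ)
    (hζ : ((ζ : S) : ℂ) = zetaN (N * l)) {φ : ℍ → ℂ} {G : LaurentSeries S}
    (hG : (φ, G) ∈ sPairs S (N * l))
    (hper : ∀ τ : ℍ, φ ((ModularGroup.T ^ (N : ℤ)) • τ) = φ τ) :
    ∃ G' : LaurentSeries S, (φ, G') ∈ sPairs S N ∧ qExpand S l G' = G := by
  haveI : NeZero (1 * 1) := ⟨one_ne_zero⟩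
  have hw := sPairs_comp_affPt ζ hζ 1 (N : ℤ) 1 (N * l) 1 (by ring) hG
  have hfun : (fun τ ↦ φ (affPt 1 (N : ℤ) 1 τ)) = φ := funext fun τ => by
    rw [← T_zpow_smul_eq_affPt, hper]
  rw [hfun] at hw
  have e := sPairs_unique hw hG
  obtain ⟨G', hG'⟩ : ∃ G', qExpand S l G' = G := Mazur.exists_qExpand_eq fun k hk => by
    by_contra h0
    have h1 : (((ζ ^ (((1 : ℕ) : ℤ) * (N : ℤ))) ^ k : Sˣ) : S) * G.coeff k = G.coeff k := by
      have h2 := congrArg (fun F : LaurentSeries S => F.coeff (((1 * 1 : ℕ) : ℤ) * k)) e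
      simp only [substHom_coeff_mul] at h2
      rwa [show (((1 * 1 : ℕ) : ℤ)) * k = k by simp] at h2
    have hz : ((((ζ ^ ((N : ℤ))) ^ k : Sˣ) : S) : ℂ) = 1 := by
      have hne : (G.coeff k : ℂ) ≠ 0 := fun h2 => h0 (Subtype.ext h2)
      have h2 := congrArg (fun x : S => (x : ℂ)) h1
      rw [Nat.cast_one, one_mul] at h2
      exact mul_right_cancel₀ hne (by rw [one_mul]; exact h2)
    have hu : (zetaN (N * l) : ℂˣ) ^ ((N : ℤ) * k) = 1 := by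
      rw [← map_zeta ζ hζ]
      refine Units.ext ?_
      rw [zpow_mul]
      exact hz
    have hd := ((zetaN_primitive (N := N * l)).zpow_eq_one_iff_dvd
      ((N : ℤ) * k)).1 hu
    push_cast at hd
    exact hk ((mul_dvd_mul_iff_left (Int.natCast_ne_zero.2 (NeZero.ne N))).1 hd)
  refine ⟨G', mem_sPairs.mpr ⟨(mem_sPairs.mp hG).1, hasExp_of_qExpand (l := l) ?_⟩, hG'⟩
  have h2 := (mem_sPairs.mp hG).2
  rw [← hG', sIncl, coeffMap_qExpand] at h2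
  exact h2

theorem exists_triangular (l : ℕ) [Fact l.Prime] (σ : SL(2, ℤ)) :
    ∃ (σ' : SL(2, ℤ)) (a : ℕ) (b : ℤ) (d : ℕ), a * d = l ∧
      (σ' 0 0 * (a : ℤ) = (l : ℤ) * σ 0 0) ∧ (σ' 1 0 * (a : ℤ) = σ 1 0) ∧
      (σ' 0 0 * b + σ' 0 1 * (d : ℤ) = (l : ℤ) * σ 0 1) ∧
      σ' 1 0 * b + σ' 1 1 * (d : ℤ) = σ 1 1 := by
  have hd := Matrix.det_fin_two (σ : Matrix (Fin 2) (Fin 2) ℤ)
  rw [σ.det_coe] at hd
  by_cases h : (l : ℤ) ∣ σ 1 0
  · obtain ⟨c, hc⟩ := h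
    refine ⟨⟨!![σ 0 0, (l : ℤ) * σ 0 1; c, σ 1 1], by
      rw [Matrix.det_fin_two_of]; linear_combination -hd + σ 0 1 * hc⟩, l, 0, 1, mul_one l, ?_⟩
    simp [hc, mul_comm]
  · obtain ⟨u, v, huv⟩ : IsCoprime (σ 1 0) (l : ℤ) :=
      ((Nat.prime_iff_prime_int.mp Fact.out).coprime_iff_not_dvd.mpr h).symm
    refine ⟨⟨!![(l : ℤ) * σ 0 0, σ 0 1 - σ 0 0 * (u * σ 1 1); σ 1 0, v * σ 1 1], by
      rw [Matrix.det_fin_two_of]
      linear_combination -hd + σ 0 0 * σ 1 1 * huv⟩, 1, u * σ 1 1, l, one_mul l, ?_⟩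
    simp only [Matrix.of_apply, Matrix.cons_val_zero, Matrix.cons_val_one]
    refine ⟨by push_cast; ring, by push_cast; ring, by push_cast; ring, ?_⟩
    linear_combination σ 1 1 * huv

/-- `τ ↦ l τ` transforms expansions at every cusp into expansions. -/
theorem compMul_mem {l N N' : ℕ} [Fact l.Prime] [NeZero l] [NeZero N] [NeZero N'] [NeZero (N * l)]
    (hdvd : N' ∣ N * l) {e : ℕ} (he : N' * e = N * l) (ζ : Sˣ)
    (hζ : ((ζ : S) : ℂ) = zetaN (N * l)) {f : ℍ → ℂ} (hf : f ∈ trRing S N)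
    (hinv : (fun τ => f (affPt l 0 1 τ)) ∈ gammaInv N') :
    (fun τ => f (affPt l 0 1 τ)) ∈ modRing S N' := by
  haveI : NeZero e := ⟨fun h => NeZero.ne (N * l) (by rw [← he, h, mul_zero])⟩
  refine ⟨mem_trRing.mpr fun σ => ?_, hinv⟩
  obtain ⟨σ', a, b, d, had, h00, h10, h01, h11⟩ := exists_triangular l σ
  haveI : NeZero a := ⟨fun h => NeZero.ne l (by rw [← had, h, zero_mul])⟩
  haveI : NeZero d := ⟨fun h => NeZero.ne l (by rw [← had, h, mul_zero])⟩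
  haveI : NeZero (a * a) := ⟨Nat.mul_ne_zero (NeZero.ne a) (NeZero.ne a)⟩
  obtain ⟨G, hG⟩ := mem_trRing.mp hf σ'
  have h2 := sPairs_comp_affPt ζ hζ a b d N a (by rw [← had]; ring) hG
  have hfun : compg σ (fun τ => f (affPt l 0 1 τ)) =
      fun τ => compg σ' f (affPt a b d τ) := by
    funext τ
    show f (affPt l 0 1 (σ • τ)) = f (σ' • affPt a b d τ)
    congr 1
    apply UpperHalfPlane.ext
    rw [coe_affPt, coe_sl_smul', coe_sl_smul', coe_affPt]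
    have hd0 : (d : ℂ) ≠ 0 := Nat.cast_ne_zero.mpr (NeZero.ne d)
    have hden := den_ne_zero σ τ
    have e00 : ((σ' 0 0 : ℤ) : ℂ) * (a : ℂ) = (l : ℂ) * ((σ 0 0 : ℤ) : ℂ) := by exact_mod_cast h00
    have e10 : ((σ' 1 0 : ℤ) : ℂ) * (a : ℂ) = ((σ 1 0 : ℤ) : ℂ) := by exact_mod_cast h10
    have e01 : ((σ' 0 0 : ℤ) : ℂ) * (b : ℂ) + ((σ' 0 1 : ℤ) : ℂ) * (d : ℂ) =
        (l : ℂ) * ((σ 0 1 : ℤ) : ℂ) := by exact_mod_cast h01
    have e11 : ((σ' 1 0 : ℤ) : ℂ) * (b : ℂ) + ((σ' 1 1 : ℤ) : ℂ) * (d : ℂ) =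
        ((σ 1 1 : ℤ) : ℂ) := by exact_mod_cast h11
    have hnum : ((σ' 0 0 : ℤ) : ℂ) * (((a : ℂ) * τ + b) / d) + (σ' 0 1 : ℤ) =
        (l : ℂ) * ((σ 0 0 : ℤ) * τ + (σ 0 1 : ℤ)) / d := by
      field_simp
      linear_combination (τ : ℂ) * e00 + e01
    have hden' : ((σ' 1 0 : ℤ) : ℂ) * (((a : ℂ) * τ + b) / d) + (σ' 1 1 : ℤ) =
        ((σ 1 0 : ℤ) * τ + (σ 1 1 : ℤ)) / d := by
      field_simp
      linear_combination (τ : ℂ) * e10 + e11
    rw [hnum, hden', div_div_div_cancel_right₀ hd0]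
    push_cast
    ring
  have hper : ∀ τ : ℍ, compg σ (fun τ => f (affPt l 0 1 τ)) ((ModularGroup.T ^ (N' : ℤ)) • τ) =
      compg σ (fun τ => f (affPt l 0 1 τ)) τ := fun τ => by
    refine compg_mem_gammaInv hinv σ _ ?_ τ
    rw [CongruenceSubgroup.Gamma_mem]
    simp [ModularGroup.coe_T_zpow, -zpow_natCast]
  rw [← hfun] at h2
  obtain ⟨ζ', hζ'⟩ : ∃ ζ' : Sˣ, ((ζ' : S) : ℂ) = zetaN (N' * e) := ⟨ζ, by rw [he, hζ]⟩
  haveI : NeZero (N' * e) := ⟨he ▸ NeZero.ne (N * l)⟩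
  obtain ⟨G', hG', -⟩ := sPairs_lower (l := e) ζ' hζ' (by rw [he]; exact h2) hper
  exact ⟨G', hG'⟩

theorem sPairs_affPt_mul {N : ℕ} (l : ℕ) [NeZero l] [NeZero N] {φ : ℍ → ℂ} {G : LaurentSeries S}
    (hG : (φ, G) ∈ sPairs S N) :
    ((fun τ => φ (affPt l 0 1 τ)), qExpand S l G) ∈ sPairs S N := by
  haveI : NeZero (1 * N) := ⟨by rw [one_mul]; exact NeZero.ne N⟩
  refine mem_sPairs.mpr ⟨mdiff_comp_affPt l 0 1 (mem_sPairs.mp hG).1, ?_⟩
  obtain ⟨-, hexp⟩ := mem_sPairs.mp hG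
  have h := hexp.comp_affine (n := 1 * N) l (1 : ℂˣ) _ (fun τ => by
    rw [qp_affPt, Units.val_one]; simp) (tendsto_affPt l 0 1)
  rw [one_mul] at h
  show HasExp N _ (sIncl S (qExpand S l G))
  rw [sIncl, coeffMap_qExpand]
  rw [substHom_apply, twist_one] at h
  exact h

end FLTAgent.Lowering.P3.Levels
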