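import Fermat.Agent.Lowering.P3.Levels.Setup
import Fermat.Agent.Eisenstein.Trace

/-!
# Independence of the congruence groups at coprime levels, and the index of `±Γ(n) ∩ Γ₀(l)`
-/

set_option autoImplicit false
set_option linter.unusedSectionVars false
set_option linter.style.haveILetI false
set_option maxHeartbeats 800000

noncomputable section

open scoped MatrixGroups

namespace FLTAgent.Lowering.P3.Levels

open FLTAgent.DeligneSerre

/-- `Γ(n) Γ(l) = SL(2, ℤ)` for coprime levels. -/
theorem Gamma_sup_Gamma {n l : ℕ} (h : n.Coprime l) :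
    CongruenceSubgroup.Gamma n ⊔ CongruenceSubgroup.Gamma l = ⊤ := by
  have hb : IsCoprime (n : ℤ) (l : ℤ) := Nat.isCoprime_iff_coprime.2 h
  obtain ⟨a, b, hab⟩ := hb
  let U : ℤ → SL(2, ℤ) := fun x => ⟨!![1, 0; x, 1], by rw [Matrix.det_fin_two_of]; ring⟩
  have hT : ∀ (m : ℕ) (x : ℤ), (m : ℤ) ∣ x → ModularGroup.T ^ x ∈ CongruenceSubgroup.Gamma m :=
    fun m x hx => by
      have h0 : (x : ZMod m) = 0 := (ZMod.intCast_zmod_eq_zero_iff_dvd _ _).mpr hx
      simp [CongruenceSubgroup.Gamma_mem, ModularGroup.coe_T_zpow, h0]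
  have hU : ∀ (m : ℕ) (x : ℤ), (m : ℤ) ∣ x → U x ∈ CongruenceSubgroup.Gamma m :=
    fun m x hx => by
      have h0 : (x : ZMod m) = 0 := (ZMod.intCast_zmod_eq_zero_iff_dvd _ _).mpr hx
      refine CongruenceSubgroup.Gamma_mem.mpr ?_
      simp [U, h0]
  set G := CongruenceSubgroup.Gamma n ⊔ CongruenceSubgroup.Gamma l
  have hTG : ModularGroup.T ∈ G := by
    have e : ModularGroup.T = ModularGroup.T ^ (a * n) * ModularGroup.T ^ (b * l) := by
      rw [← zpow_add, hab, zpow_one]
    rw [e]
    exact mul_mem (Subgroup.mem_sup_left (hT n _ (dvd_mul_left _ _)))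
      (Subgroup.mem_sup_right (hT l _ (dvd_mul_left _ _)))
  have hLG : U 1 ∈ G := by
    have e : U 1 = U (a * n) * U (b * l) := by
      ext i j
      rw [Matrix.SpecialLinearGroup.coe_mul]
      fin_cases i <;> fin_cases j <;> simp [U, Matrix.mul_apply, Fin.sum_univ_two, hab]
    rw [e]
    exact mul_mem (Subgroup.mem_sup_left (hU n _ (dvd_mul_left _ _)))
      (Subgroup.mem_sup_right (hU l _ (dvd_mul_left _ _)))
  have hSG : ModularGroup.S ∈ G := by
    have e : ModularGroup.S = ModularGroup.T⁻¹ * U 1 * ModularGroup.T⁻¹ := by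
      ext i j
      rw [Matrix.SpecialLinearGroup.coe_mul, Matrix.SpecialLinearGroup.coe_mul,
        ModularGroup.coe_T_inv]
      fin_cases i <;> fin_cases j <;>
        simp [U, ModularGroup.S, Matrix.mul_apply, Fin.sum_univ_two]
    rw [e]
    exact mul_mem (mul_mem (inv_mem hTG) hLG) (inv_mem hTG)
  refine eq_top_iff.2 ?_
  rw [← SpecialLinearGroup.SL2Z_generators, Subgroup.closure_le]
  rintro g (rfl | rfl)
  exacts [hSG, hTG]

/-- An element congruent to `g` modulo `l` inside `Γ(n)`. -/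
theorem exists_congr {n l : ℕ} (h : n.Coprime l) (g : SL(2, ℤ)) :
    ∃ k ∈ CongruenceSubgroup.Gamma n, k⁻¹ * g ∈ CongruenceSubgroup.Gamma l := by
  haveI := CongruenceSubgroup.Gamma_normal l
  have hg : g ∈ CongruenceSubgroup.Gamma n ⊔ CongruenceSubgroup.Gamma l :=
    (Gamma_sup_Gamma h).symm ▸ Subgroup.mem_top g
  obtain ⟨k, hk, m, hm, rfl⟩ := Subgroup.mem_sup_of_normal_right.1 hg
  exact ⟨k, hk, by rwa [inv_mul_cancel_left]⟩

theorem Gamma_le_Gamma0' (l : ℕ) : CongruenceSubgroup.Gamma l ≤ CongruenceSubgroup.Gamma0 l :=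
  fun _ hg => CongruenceSubgroup.Gamma0_mem.mpr (CongruenceSubgroup.Gamma_mem.mp hg).2.2.1

theorem index_grp0 {n l : ℕ} [Fact l.Prime] (h : n.Coprime l) :
    (grp0 n l).index = (l + 1) * (pmGamma n).index := by
  have hrel : (grp0 n l).relIndex (pmGamma n) = (CongruenceSubgroup.Gamma0 l).index := by
    rw [grp0, Subgroup.inf_relIndex_left, Subgroup.relIndex, Subgroup.index, Subgroup.index]
    let f : pmGamma n ⧸ (CongruenceSubgroup.Gamma0 l).subgroupOf (pmGamma n) →
        SL(2, ℤ) ⧸ CongruenceSubgroup.Gamma0 l :=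
      Quotient.map' (fun x => (x : SL(2, ℤ))) fun x y hxy => by
        rw [QuotientGroup.leftRel_apply] at hxy ⊢
        exact hxy
    refine Nat.card_eq_of_bijective f ⟨?_, ?_⟩
    · intro x y
      induction x using QuotientGroup.induction_on with
      | H x =>
        induction y using QuotientGroup.induction_on with
        | H y =>
          intro hxy
          exact QuotientGroup.eq.2 (QuotientGroup.eq.1 hxy :
            ((x : SL(2, ℤ)))⁻¹ * (y : SL(2, ℤ)) ∈ CongruenceSubgroup.Gamma0 l)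
    · intro z
      induction z using QuotientGroup.induction_on with
      | H g =>
        obtain ⟨k, hk, hk'⟩ := exists_congr h g
        exact ⟨QuotientGroup.mk ⟨k, Or.inl hk⟩, QuotientGroup.eq.2 (Gamma_le_Gamma0' l hk')⟩
  have hle : grp0 n l ≤ pmGamma n := inf_le_left
  rw [← Subgroup.relIndex_mul_index hle, hrel, Eisenstein.index_Gamma0_prime]

end FLTAgent.Lowering.P3.Levels
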