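import Fermat.Agent.Lowering.P3.Levels.Groups

/-!
# The field of level `±Γ(n)` inside the fields of `±Γ(n) ∩ Γ₀(l)` and `±Γ(n) ∩ ±Γ₁(l)`
-/

set_option autoImplicit false
set_option linter.unusedSectionVars false
set_option linter.style.haveILetI false
set_option maxHeartbeats 1600000
set_option synthInstance.maxHeartbeats 100000

noncomputable section

open UpperHalfPlane hiding I I_re I_im
open Filter Topology Complex Function FLTAgent.ModEq FLTAgent.GoodModel ModularCurve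
open scoped MatrixGroups IntermediateField

namespace FLTAgent.Lowering.P3.Levels

open FLTAgent.DeligneSerre FLTAgent.Carayol

local notation "LL" => AlgebraicClosure ℚ

variable {M0 N' l : ℕ} [NeZero M0] [NeZero N'] [NeZero l] [NeZero (M0 * N')] [NeZero (N' * l)]
  [NeZero (M0 * (N' * l))]

theorem modRing_level_le (S : Subring ℂ) :
    modRing S (M0 * N') ≤ modRing S (M0 * (N' * l)) := by
  rintro f ⟨h1, h2⟩
  refine ⟨mem_trRing_of_level (W := S) le_rfl (k := l) (mul_assoc M0 N' l) h1, fun γ hγ τ => ?_⟩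
  refine h2 γ ?_ τ
  rw [CongruenceSubgroup.Gamma_mem] at hγ ⊢
  have hd : M0 * N' ∣ M0 * (N' * l) := ⟨l, (mul_assoc M0 N' l).symm⟩
  obtain ⟨h00, h01, h10, h11⟩ := hγ
  exact ⟨by simpa only [map_intCast, map_one, map_zero] using congrArg (ZMod.castHom hd (ZMod (M0 * N'))) h00,
    by simpa only [map_intCast, map_one, map_zero] using congrArg (ZMod.castHom hd (ZMod (M0 * N'))) h01,
    by simpa only [map_intCast, map_one, map_zero] using congrArg (ZMod.castHom hd (ZMod (M0 * N'))) h10,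
    by simpa only [map_intCast, map_one, map_zero] using congrArg (ZMod.castHom hd (ZMod (M0 * N'))) h11⟩

/-- The same function at level `n l`. -/
def liftM (S : Subring ℂ) : modRing S (M0 * N') →+* modRing S (M0 * (N' * l)) :=
  Subring.inclusion (modRing_level_le S)

theorem coe_liftM (S : Subring ℂ) (f : modRing S (M0 * N')) :
    (liftM (l := l) S f : ℍ → ℂ) = (f : ℍ → ℂ) :=
  coe_subringInclusion (modRing_level_le S) f

theorem serM_liftM (S : Subring ℂ) (f : modRing S (M0 * N')) :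
    serM (liftM (l := l) S f) = qExpand S l (serM f) := by
  refine serM_eq ?_
  rw [coe_liftM]
  exact sPairs_refine (mul_assoc M0 N' l) (serM_spec f)

theorem transl_liftM (S : Subring ℂ) (g : SL(2, ℤ)) (f : modRing S (M0 * N')) :
    transl g (liftM (l := l) S f) = liftM S (transl g f) :=
  Subtype.ext (funext fun τ => by
    rw [transl_apply, coe_liftM, coe_liftM, transl_apply])

variable {κ : LL →+* ℂ} (P₀ : Frame κ.range M0 N') (P' : Frame κ.range M0 (N' * l))

local notation "φ₀" => toLL κ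
local notation "hφ₀" => toLL_surjective κ

theorem coe_redF_liftM (f : modRing κ.range (M0 * N')) :
    (P'.redF φ₀ hφ₀ (liftM κ.range f) : LaurentSeries LL) =
      qExpand LL l (P₀.redF φ₀ hφ₀ f : LaurentSeries LL) := by
  rw [P'.coe_redF, P₀.coe_redF]
  simp only [red, RingHom.comp_apply]
  rw [serM_liftM, coeffMap_qExpand]

theorem qExpand_mem_fld (x : P₀.fld φ₀) :
    qExpand LL l (x : LaurentSeries LL) ∈ P'.fld φ₀ := by
  obtain ⟨a, b, -, rfl⟩ := P₀.exists_frac φ₀ hφ₀ x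
  rw [IntermediateField.coe_div, map_div₀, ← coe_redF_liftM P₀ P', ← coe_redF_liftM P₀ P',
    ← IntermediateField.coe_div]
  exact SetLike.coe_mem _

/-- The field of level `n` inside that of level `n l`. -/
def toTop : P₀.fld φ₀ →ₐ[LL] P'.fld φ₀ :=
  ((iotaL l).comp (P₀.fld φ₀).val).codRestrict (P'.fld φ₀).toSubalgebra fun x => by
    show iotaL l (x : LaurentSeries LL) ∈ P'.fld φ₀
    rw [iotaL_apply]
    exact qExpand_mem_fld P₀ P' x

theorem coe_toTop (x : P₀.fld φ₀) :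
    (toTop P₀ P' x : LaurentSeries LL) = qExpand LL l (x : LaurentSeries LL) :=
  iotaL_apply (x : LaurentSeries LL)

theorem toTop_redF (f : modRing κ.range (M0 * N')) :
    toTop P₀ P' (P₀.redF φ₀ hφ₀ f) = P'.redF φ₀ hφ₀ (liftM κ.range f) :=
  Subtype.ext ((coe_toTop P₀ P' _).trans (coe_redF_liftM P₀ P' f).symm)

theorem psi_toTop (g : SL(2, ℤ)) (x : P₀.fld φ₀) :
    P'.psi φ₀ hφ₀ g (toTop P₀ P' x) = toTop P₀ P' (P₀.psi φ₀ hφ₀ g x) := by
  obtain ⟨a, b, -, rfl⟩ := P₀.exists_frac φ₀ hφ₀ x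
  simp only [map_div₀, P₀.psi_redF, toTop_redF, P'.psi_redF, transl_liftM]

theorem fld_le_fldQ {H : Subgroup SL(2, ℤ)} (hH : H ≤ pmGamma (M0 * N')) :
    P₀.fld φ₀ ≤ fldQ P' H := fun x hx => by
  refine mem_fldQ.2 ⟨toTop P₀ P' ⟨x, hx⟩, (P'.mem_fixedFld φ₀ hφ₀).2 fun g hg => ?_, coe_toTop ..⟩
  rw [P'.act_apply, psi_toTop, P₀.psi_of_mem φ₀ hφ₀ (hH (inv_mem hg))]

/-- The field of level `n` inside the field of `H`. -/
def incl {H : Subgroup SL(2, ℤ)} (hH : H ≤ pmGamma (M0 * N')) :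
    P₀.fld φ₀ →ₐ[LL] fldQ P' H :=
  IntermediateField.inclusion (fld_le_fldQ P₀ P' hH)

theorem coe_incl {H : Subgroup SL(2, ℤ)} (hH : H ≤ pmGamma (M0 * N')) (x : P₀.fld φ₀) :
    (incl P₀ P' hH x : LaurentSeries LL) = (x : LaurentSeries LL) := rfl

theorem up_incl {H : Subgroup SL(2, ℤ)} (hH : H ≤ pmGamma (M0 * N')) (x : P₀.fld φ₀) :
    up H (incl P₀ P' hH x) = toTop P₀ P' x :=
  Subtype.ext ((coe_up _).trans (coe_toTop P₀ P' x).symm)

theorem coe_wInv_incl [Fact l.Prime] (hnl : (M0 * N').Coprime l) {H : Subgroup SL(2, ℤ)}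
    (hH : H = grp0 (M0 * N') l ∨ H = grp1 (M0 * N') l) (hH' : H ≤ pmGamma (M0 * N'))
    (x : P₀.fld φ₀) : (wInv hnl hH (incl P₀ P' hH' x) : LaurentSeries LL) =
      qExpand LL l (P₀.psi φ₀ hφ₀ ModularGroup.S x : LaurentSeries LL) := by
  rw [coe_wInv, up_incl, psi_toTop, coe_toTop]

theorem exists_up_of_fixed {H : Subgroup SL(2, ℤ)} (hT : ModularGroup.T ^ ((M0 * N' : ℕ) : ℤ) ∈ H)
    {z : P'.fld φ₀} (hz : z ∈ P'.fixedFld φ₀ hφ₀ H) :
    ∃ x : fldQ P' H, up H x = z := by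
  set ζ := Units.map (φ₀ : κ.range →* LL) P'.ξ with hζdef
  have hiter : ∀ m : ℕ, (P'.psi φ₀ hφ₀ (ModularGroup.T ^ m) z : LaurentSeries LL) =
      twist (ζ ^ m) (z : LaurentSeries LL) := by
    intro m
    induction m with
    | zero => rw [pow_zero, P'.psi_one, pow_zero, twist_one]
    | succ m ih =>
      rw [pow_succ, ← P'.psi_psi, P'.coe_psi_T, ih, twist_twist, ← hζdef, pow_succ']
  have hfix : twist (ζ ^ (M0 * N')) (z : LaurentSeries LL) = (z : LaurentSeries LL) := by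
    rw [← hiter]
    have h := (P'.mem_fixedFld φ₀ hφ₀).1 hz _ (inv_mem hT)
    rw [P'.act_apply, inv_inv, zpow_natCast] at h
    rw [h]
  have hprim : IsPrimitiveRoot (ζ ^ (M0 * N')) l :=
    (isPrimitiveRoot_map φ₀ P'.ξ P'.hξ P'.hv).pow (Nat.pos_of_ne_zero (NeZero.ne _))
      (mul_assoc M0 N' l).symm
  obtain ⟨x, hx⟩ := exists_qExpand_of_twist hprim hfix
  exact ⟨⟨x, mem_fldQ.2 ⟨z, hz, hx.symm⟩⟩, Subtype.ext ((coe_up _).trans hx)⟩

end FLTAgent.Lowering.P3.Levels
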