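import Fermat.Agent.BadRed.Modular

/-!
# Sheets whose two coordinates satisfy the modular equation
-/

set_option autoImplicit false
set_option linter.style.haveILetI false
set_option linter.unusedSectionVars false
set_option synthInstance.maxHeartbeats 400000
set_option maxHeartbeats 1000000

noncomputable section

open AlgebraicCurve ModularCurve IntermediateField Polynomial

namespace FLTAgent.Lowering.P3.Levels

open FLTAgent.Curves FLTAgent.Specialization FLTAgent.ModEq FLTAgent.BadRed

local notation "QA" => AlgebraicClosure ℚ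

variable {A : ValuationSubring QA} {k : Type} [Field k] [IsAlgClosed k] {π : A →+* k}
  {FC Fb F : Type} [Field FC] [Field Fb] [Field F] [Algebra QA FC] [Algebra k Fb] [Algebra QA F]
  [IsFunctionField QA FC] [IsFunctionField QA F] [IsFunctionField k Fb]
  {q : ℕ} [Fact q.Prime] [NeZero q]

/-- The modular equation gives the hypotheses at the cusps. -/
theorem good_of_modular (S : Sheet π FC Fb F q) (hsm : S.MC.Smooth)
    (hroot : ∀ φ, ∃ ψ, S.V φ = ψ ^ q)
    (h₁ : ((modularPolynomialData q).Φ.map (evalAt S.X)).eval (S.β S.MC.x) = 0)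
    (h₂ : ((modularPolynomialData q).Φ.map (evalAt (S.β S.MC.x))).eval S.X = 0) : S.Good := by
  set X := S.X
  set Y := S.β S.MC.x
  set P := modularPolynomialData q
  set n := P.Φ.natDegree
  have hn : n = q + 1 := by
    obtain ⟨ζ, hζ⟩ := exists_isPrimitiveRoot_units (K := QA) q
      (Nat.cast_ne_zero.2 (Fact.out : q.Prime).ne_zero)
    have h := congrArg natDegree (map_evalAt_modularPolynomial hζ dvd_rfl P)
    rw [P.monic.natDegree_map, natDegree_prod_of_monic _ _ fun t _ => monic_X_sub_C _] at h
    simp only [natDegree_X_sub_C, Finset.sum_const, smul_eq_mul, mul_one] at h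
    rw [← card_primTriples_prime P ζ hζ]
    exact h
  have hev : ∀ (x : F) (a : ℤ[X]),
      evalAt x a = aeval x (a.map (Int.castRingHom QA)) := fun x a => by
    rw [evalAt_apply, aeval_def, eval₂_map]
    congr 1
    exact RingHom.ext_int _ _
  have hrel : ∀ x y : F, (P.Φ.map (evalAt x)).eval y = 0 →
      y ^ n + ∑ i ∈ Finset.range n,
        aeval x ((P.Φ.coeff i).map (Int.castRingHom QA)) * y ^ i = 0 := fun x y h => by
    rw [eval_eq_sum_range, P.monic.natDegree_map, Finset.sum_range_succ] at h
    simp only [coeff_map, hev] at h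
    rw [show P.Φ.coeff n = 1 from P.monic.coeff_natDegree, Polynomial.map_one, map_one, one_mul,
      add_comm] at h
    exact h
  have hXY := hrel X Y h₁
  have hYX := hrel Y X (h₂)
  have hint : IntegralWrt QA X Y := integralWrt_of_relation hXY
  have hint' : IntegralWrt QA Y X := integralWrt_of_relation hYX
  refine ⟨hsm, by exact hint, ?_, ?_, ?_, hroot⟩
  · show InftyBound QA X q Y
    intro v hv
    by_contra hcon
    have hY0 : Y ≠ 0 := fun h0 => hcon (Or.inl h0)
    have hlt : v.ord Y < (q : ℤ) * v.ord X := not_le.1 fun h0 => hcon (ordGE_of_le h0)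
    have h1 : OrdGE v ((n : ℤ) * v.ord Y + 1)
        (∑ i ∈ Finset.range n, aeval X ((P.Φ.coeff i).map (Int.castRingHom QA)) * Y ^ i) := by
      refine OrdGE.sum fun i hi => ?_
      have hin : i < n := Finset.mem_range.1 hi
      set a := (P.Φ.coeff i).map (Int.castRingHom QA)
      have hd : (a.natDegree : ℤ) ≤ (q : ℤ) * ((n : ℤ) - i) := by
        have := (natDegree_map_le).trans (natDegree_coeff_le P i) (a := a.natDegree)
        rw [hn]
        have h2 : ((q * (q + 1 - i) : ℕ) : ℤ) = (q : ℤ) * (((q + 1 : ℕ) : ℤ) - i) := by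
          rw [Nat.cast_mul, Nat.cast_sub (by omega)]
        calc (a.natDegree : ℤ) ≤ ((q * (q + 1 - i) : ℕ) : ℤ) := by exact_mod_cast this
          _ = _ := h2
      have ha : OrdGE v ((a.natDegree : ℤ) * v.ord X) (aeval X a) := by
        rcases eq_or_ne a 0 with h0 | h0
        · exact Or.inl (by rw [h0, map_zero])
        · exact ordGE_of_le (ord_aeval_of_neg hv h0).1.ge
      refine (ha.mul (ordGE_of_le (ord_pow v Y i).ge)).mono ?_
      have hpos : (1 : ℤ) ≤ (n : ℤ) - i := by omega
      have h2 : ((n : ℤ) - i) * (v.ord Y + 1) ≤ ((n : ℤ) - i) * ((q : ℤ) * v.ord X) :=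
        mul_le_mul_of_nonneg_left (by omega) (by omega)
      have h3 : ((q : ℤ) * ((n : ℤ) - i)) * v.ord X ≤ (a.natDegree : ℤ) * v.ord X :=
        mul_le_mul_of_nonpos_right hd hv.le
      nlinarith
    rw [add_eq_zero_iff_eq_neg] at hXY
    have h3 := (hXY ▸ h1.neg : OrdGE v _ (Y ^ n)).le_ord (pow_ne_zero _ hY0)
    rw [ord_pow] at h3
    omega
  · show ∀ v : Place QA F, v.ord X < 0 → v.ord Y < 0
    intro v hv
    by_contra hcon
    have h := hint' v (not_lt.1 hcon)
    exact absurd (h.le_ord fun h0 => by rw [h0] at hv; simp at hv) (not_le.2 hv)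
  · show ∃ p : A[X], p.Monic ∧ 0 < p.natDegree ∧
      IntegralWrt QA X (aeval X (p.map A.subtype) / Y)
    refine ⟨P.Φ.map ((Int.castRingHom A).comp (evalRingHom 0)), P.monic.map _, ?_, ?_⟩
    · rw [P.monic.natDegree_map]
      show 0 < n
      omega
    set b : ℕ → ℤ[X] := fun i => (P.Φ.coeff i).divX
    have hb : ∀ i, evalAt Y (P.Φ.coeff i) =
        evalAt Y (b i) * Y + (((P.Φ.coeff i).coeff 0 : ℤ) : F) := fun i => by
      conv_lhs => rw [← divX_mul_X_add (P.Φ.coeff i)]
      rw [map_add, map_mul, evalAt_X, evalAt_apply _ (C _), eval₂_C, eq_intCast]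
    have hp : aeval X ((P.Φ.map ((Int.castRingHom A).comp (evalRingHom 0))).map A.subtype) =
        -(∑ i ∈ Finset.range n, evalAt Y (b i) * X ^ i) * Y := by
      have h : (P.Φ.map (evalAt Y)).eval X = 0 := h₂
      rw [eval_eq_sum_range, P.monic.natDegree_map] at h
      have hc : evalAt Y (b n) = 0 := by
        rw [show b n = 0 by simp [b, n, P.monic.coeff_natDegree]]
        exact map_zero _
      simp only [coeff_map, hb, add_mul, Finset.sum_add_distrib] at h
      rw [aeval_def, eval₂_map, eval₂_map, eval₂_eq_sum_range]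
      simp only [RingHom.comp_apply, coe_evalRingHom, ← coeff_zero_eq_eval_zero, eq_intCast,
        map_intCast]
      refine (eq_neg_of_add_eq_zero_right h).trans ?_
      rw [Finset.sum_range_succ, hc, zero_mul, zero_mul, add_zero, neg_mul, Finset.sum_mul]
      exact congrArg Neg.neg (Finset.sum_congr rfl fun i _ => by ring)
    have hY0 : Y ≠ 0 := by
      exact (_root_.map_ne_zero S.β).2 (ne_zero_of_transcendental S.MC.transcendental_x)
    rw [hp, mul_div_assoc, div_self hY0, mul_one]
    intro v hv
    refine (OrdGE.sum fun i _ => ?_).neg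
    simpa using ((integralWrt_trans hint (hev Y (b i) ▸ integralWrt_aeval Y _)) v hv).mul
      (integralWrt_pow (integralWrt_self X) i v hv)

end FLTAgent.Lowering.P3.Levels
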