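import Fermat.Agent.Lowering.P3.Levels.Equivariant
import Fermat.Agent.Kronecker.Congruence
import Fermat.Agent.BadRed.Modular

/-!
# The inseparable endomorphism of the special fibre of level `±Γ(n)` in characteristic `l`
-/

set_option autoImplicit false
set_option linter.unusedSectionVars false
set_option linter.style.haveILetI false
set_option maxHeartbeats 800000
set_option synthInstance.maxHeartbeats 100000

noncomputable section

open UpperHalfPlane hiding I I_re I_im
open Filter Topology Complex Function FLTAgent.ModEq FLTAgent.GoodModel ModularCurve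
open scoped MatrixGroups IntermediateField

namespace FLTAgent.Lowering.P3.Levels

open FLTAgent.DeligneSerre

variable {S : Subring ℂ} {M0 N' : ℕ} [NeZero M0] [NeZero N'] [NeZero (M0 * N')]
  (P : Frame S M0 N') {k : Type} [Field k] [IsAlgClosed k] (φ : S →+* k) (hφ : Surjective φ)
  (l : ℕ) [Fact l.Prime] [NeZero l] [CharP k l] (hnl : (M0 * N').Coprime l)

/-- The inverse Frobenius of the constants. -/
def frobInv : k →+* k := (frobeniusEquiv k l).symm.toRingHom

theorem frobenius_frobInv (x : k) : frobenius k l (frobInv l x) = x :=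
  frobenius_apply_frobeniusEquiv_symm k l x

theorem coeffMap_frobenius_frobInv (x : LaurentSeries k) :
    coeffMap (frobenius k l) (coeffMap (frobInv l) x) = x := by
  rw [coeffMap_coeffMap]
  ext i
  rw [coeffMap_coeff, RingHom.comp_apply, frobenius_frobInv]

theorem qExpand_eq_pow (x : LaurentSeries k) :
    qExpand k l x = coeffMap (frobInv l) x ^ l := by
  rw [Kronecker.laurent_pow_char l, coeffMap_frobenius_frobInv]

include hnl in
theorem exists_frobInv_root : ∃ c : ℤ, IsUnit ((c : ℤ) : ZMod (M0 * N')) ∧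
    Units.map ((frobInv (k := k) l : k →+* k) : k →* k) (Units.map (φ : S →* k) P.ξ) =
      Units.map (φ : S →* k) P.ξ ^ c := by
  obtain ⟨u, hu⟩ := (ZMod.isUnit_iff_coprime l (M0 * N')).mpr hnl.symm
  refine ⟨(((u⁻¹ : (ZMod (M0 * N'))ˣ) : ZMod (M0 * N')).val : ℤ), by simp, Units.ext ?_⟩
  set e := ((u⁻¹ : (ZMod (M0 * N'))ˣ) : ZMod (M0 * N')).val
  have hn : Units.map (φ : S →* k) P.ξ ^ (M0 * N') = 1 := by
    rw [← map_pow, zeta_pow P.ξ P.hξ, map_one]
  have hel : ((e * l : ℕ) : ZMod (M0 * N')) = 1 := by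
    rw [Nat.cast_mul, ZMod.natCast_zmod_val, ← hu, Units.inv_mul]
  obtain ⟨t, ht⟩ : ∃ t, e * l = 1 + M0 * N' * t := by
    have h2 : 1 ≤ M0 * N' := Nat.pos_of_ne_zero (NeZero.ne _)
    rcases Nat.eq_zero_or_pos (e * l) with h0 | h0
    · exfalso
      rw [h0, Nat.cast_zero] at hel
      have h3 : ((1 : ℕ) : ZMod (M0 * N')) = 0 := by rw [Nat.cast_one, ← hel]
      have := Nat.le_of_dvd Nat.one_pos ((ZMod.natCast_eq_zero_iff _ _).mp h3)
      have := P.hn
      omega
    · have h3 : ((e * l - 1 : ℕ) : ZMod (M0 * N')) = 0 := by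
        rw [Nat.cast_sub h0, hel, Nat.cast_one, sub_self]
      obtain ⟨t, ht⟩ := (ZMod.natCast_eq_zero_iff _ _).mp h3
      exact ⟨t, by omega⟩
  rw [zpow_natCast, Units.coe_map, Units.val_pow_eq_pow_val]
  refine (frobenius k l).injective ?_
  show frobenius k l (frobInv l _) = _
  rw [frobenius_frobInv, frobenius_def, ← Units.val_pow_eq_pow_val, ← Units.val_pow_eq_pow_val,
    ← pow_mul, ht, pow_add, pow_one, pow_mul, hn, one_pow, mul_one]

include hφ hnl in
theorem coeffMap_frobInv_mem {x : LaurentSeries k} (hx : x ∈ P.fld φ) :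
    coeffMap (frobInv l) x ∈ P.fld φ := by
  obtain ⟨c, hc, hτ⟩ := exists_frobInv_root P φ l hnl
  exact coeffMap_mem_fld P φ hφ (frobInv l) c hc hτ hx

include hφ hnl in
theorem qExpand_mem_fld' {x : LaurentSeries k} (hx : x ∈ P.fld φ) :
    qExpand k l x ∈ P.fld φ := by
  rw [qExpand_eq_pow]
  exact pow_mem (coeffMap_frobInv_mem P φ hφ l hnl hx) l

/-- The inseparable endomorphism of degree `l`. -/
def specV : P.fld φ →ₐ[k] P.fld φ :=
  ((substAlg (1 : kˣ) l).comp ((P.fld φ).val.comp (P.psi φ hφ ModularGroup.S))).codRestrict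
    (P.fld φ).toSubalgebra fun x => by
      show substHom (1 : kˣ) l (P.psi φ hφ ModularGroup.S x : LaurentSeries k) ∈ P.fld φ
      rw [substHom_one]
      exact qExpand_mem_fld' P φ hφ l hnl (SetLike.coe_mem _)

theorem coe_specV (x : P.fld φ) : (specV P φ hφ l hnl x : LaurentSeries k) =
    qExpand k l (P.psi φ hφ ModularGroup.S x : LaurentSeries k) := by
  show substHom (1 : kˣ) l (P.psi φ hφ ModularGroup.S x : LaurentSeries k) = _
  rw [substHom_one]

theorem exists_root_specV (x : P.fld φ) : ∃ y, specV P φ hφ l hnl x = y ^ l :=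
  ⟨⟨_, coeffMap_frobInv_mem P φ hφ l hnl (P.psi φ hφ ModularGroup.S x).2⟩,
    Subtype.ext (by rw [coe_specV, IntermediateField.coe_pow, qExpand_eq_pow])⟩

theorem psi_jj (g : SL(2, ℤ)) : P.psi φ hφ g (P.jj φ hφ) = P.jj φ hφ := by
  rw [Frame.jj, P.psi_redF, transl_jm]

theorem specV_jj : specV P φ hφ l hnl (P.jj φ hφ) = P.jj φ hφ ^ l := by
  refine Subtype.ext ?_
  rw [coe_specV, psi_jj, IntermediateField.coe_pow, qExpand_eq_pow, P.coe_jj, jAt_one_left,
    coeffMap_jqNModC]

theorem indep_specV (c : Fin l → P.fld φ)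
    (h : ∑ i : Fin l, P.jj φ hφ ^ (i : ℕ) * specV P φ hφ l hnl (c i) = 0) : c = 0 := by
  classical
  have h' := congrArg (P.fld φ).val h
  simp only [map_sum, map_mul, map_pow, map_zero] at h'
  change ∑ i : Fin l, (P.jj φ hφ : LaurentSeries k) ^ (i : ℕ) *
    (specV P φ hφ l hnl (c i) : LaurentSeries k) = 0 at h'
  simp only [coe_specV, P.coe_jj] at h'
  by_contra hne
  set f : Fin l → LaurentSeries k :=
    fun i => (P.psi φ hφ ModularGroup.S (c i) : LaurentSeries k) with hf
  set T := Finset.univ.filter fun i : Fin l => f i ≠ 0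
  have hT : T.Nonempty := by
    obtain ⟨i, hi⟩ := Function.ne_iff.1 hne
    refine ⟨i, Finset.mem_filter.2 ⟨Finset.mem_univ _, fun h0 => hi ?_⟩⟩
    exact (_root_.map_eq_zero (P.psi φ hφ ModularGroup.S)).1 (Subtype.ext h0)
  set n := M0 * N'
  obtain ⟨i, hi, hmin⟩ := T.exists_min_image
    (fun i => (l : ℤ) * (f i).order - (n : ℤ) * (i : ℕ)) hT
  have hg : ∀ j : Fin l, GeOrd (qExpand k l (f j)) ((l : ℤ) * (f j).order) := fun j m hm => by
    by_cases hd : (l : ℤ) ∣ m
    · obtain ⟨e, rfl⟩ := hd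
      rw [qExpand_coeff_mul]
      refine HahnSeries.coeff_eq_zero_of_lt_order ?_
      nlinarith [(Fact.out : l.Prime).pos]
    · exact qExpand_coeff_of_not_dvd l _ hd
  have key := congrArg
    (fun z : LaurentSeries k => z.coeff (-(((i : ℕ) : ℤ) * n) + (l : ℤ) * (f i).order)) h'
  simp only [HahnSeries.coeff_sum, HahnSeries.coeff_zero] at key
  rw [Finset.sum_eq_single i] at key
  · rw [(geOrd_jAt_pow (1 : kˣ) n i).coeff_mul_add (hg i), jAt_pow_coeff (1 : kˣ) n (i : ℕ),
      qExpand_coeff_mul] at key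
    simp only [inv_one, one_pow, Units.val_one, one_mul, HahnSeries.coeff_order_eq_zero] at key
    exact (Finset.mem_filter.1 hi).2 key
  · intro j _ hj
    by_cases h0 : f j = 0
    · simp only [hf] at h0
      simp [h0]
    refine (geOrd_jAt_pow (1 : kˣ) n j).mul (hg j) _ ?_
    have hle := hmin j (Finset.mem_filter.2 ⟨Finset.mem_univ _, h0⟩)
    refine lt_of_le_of_ne (by linarith) fun he => hj (Fin.ext ?_)
    have h1 : (l : ℤ) ∣ (n : ℤ) * (((j : ℕ) : ℤ) - (i : ℕ)) :=
      ⟨(f j).order - (f i).order, by linarith⟩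
    have h2 : (l : ℤ) ∣ ((j : ℕ) : ℤ) - (i : ℕ) :=
      (Nat.isCoprime_iff_coprime.2 hnl.symm).dvd_of_dvd_mul_left h1
    have h3 : |((j : ℕ) : ℤ) - (i : ℕ)| < l := by
      rw [abs_lt]; constructor <;> omega
    have h4 := Int.eq_zero_of_abs_lt_dvd h2 h3
    omega
  · simp

end FLTAgent.Lowering.P3.Levels
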