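import Fermat.Agent.Lowering.P3.Levels.Compat
import Fermat.Agent.Lowering.P3.Levels.Lift
import Fermat.Agent.Lowering.P3.Levels.Special
import Fermat.Agent.Lowering.P3.Levels.ModularGood
import Fermat.Agent.DeligneSerre.Smooth.GoodReduction

/-!
# The two sheets of the field of `±Γ(n) ∩ Γ₀(l)` at `l`
-/

set_option autoImplicit false
set_option linter.unusedSectionVars false
set_option linter.style.haveILetI false
set_option maxHeartbeats 1600000
set_option synthInstance.maxHeartbeats 400000

noncomputable section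

open UpperHalfPlane hiding I I_re I_im
open Filter Topology Complex Function FLTAgent.ModEq FLTAgent.GoodModel ModularCurve
open AlgebraicCurve FLTAgent.Curves IsLocalRing
open FLTAgent.Specialization (laurentReduction laurentReduction_compat)
open scoped MatrixGroups IntermediateField

namespace FLTAgent.Lowering.P3.Levels

open FLTAgent.DeligneSerre FLTAgent.BadRed

local notation "LL" => AlgebraicClosure ℚ

/-- The frames of the levels `n` and `n l`, and the frame of level `n` over a place above `l`. -/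
structure Data (κ : LL →+* ℂ) (M0 N' l : ℕ) [NeZero M0] [NeZero N'] [NeZero l]
    [NeZero (N' * l)] (V : ValuationSubring LL) where
  hl : l.Prime
  above : V.LiesOverPrime l
  cop : (M0 * N').Coprime l
  top : Frame κ.range M0 (N' * l)
  low : Frame κ.range M0 N'
  S : Subring ℂ
  le : S ≤ κ.range
  fr : Frame S M0 N'
  e : S →+* V
  e_surj : Surjective e
  coe_e : ∀ s, (e s : LL) = toLL κ (Subring.inclusion le s)
  root : Vˣ
  root_prim : IsPrimitiveRoot (Units.map (V.subtype : V →* LL) root) (M0 * N')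

variable {κ : LL →+* ℂ} {M0 N' l : ℕ} [NeZero M0] [NeZero N'] [NeZero l] [NeZero (M0 * N')]
  [NeZero (N' * l)] [NeZero (M0 * (N' * l))] {V : ValuationSubring LL}

theorem neg_one_mem_pmGamma (n : ℕ) : (-1 : SL(2, ℤ)) ∈ pmGamma n :=
  Or.inr (by rw [neg_neg]; exact one_mem _)

theorem exists_data (hM : M0 = 2 ∨ M0 = 3) (hn : 3 ≤ M0 * N') (hl : l.Prime)
    (hnl : (M0 * N').Coprime l) (hV : V.LiesOverPrime l) (top : Frame κ.range M0 (N' * l)) :
    Nonempty (Data κ M0 N' l V) := by
  haveI := Fact.mk hl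
  obtain ⟨S, h, P', P, e, ξ, he, hξ⟩ := exists_frames (κ := κ) hM hn
    ((hl.coprime_iff_not_dvd).1 hnl.symm) hV
  exact ⟨⟨hl, hV, hnl, top, P', S, h, P, e.toRingHom, e.surjective, he, ξ, hξ⟩⟩

namespace Data

variable (d : Data κ M0 N' l V)

/-- The constants of the special fibre. -/
abbrev red₀ : d.S →+* ResidueField V := (residue V).comp d.e

theorem red₀_surj : Surjective d.red₀ := residue_surjective.comp d.e_surj

/-- The field of level `n`. -/
abbrev FC : IntermediateField LL (LaurentSeries LL) := d.low.fld (toLL κ)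

/-- The special fibre of level `n`. -/
abbrev Fb : IntermediateField (ResidueField V) (LaurentSeries (ResidueField V)) :=
  d.fr.fld d.red₀

/-- The field of a group between `±Γ(n l)` and `±Γ(n)`. -/
abbrev fldOf (H : Subgroup SL(2, ℤ)) : IntermediateField LL (LaurentSeries LL) := fldQ d.top H

/-- The field of `±Γ(n) ∩ Γ₀(l)`. -/
abbrev F₀ : IntermediateField LL (LaurentSeries LL) := d.fldOf (grp0 (M0 * N') l)

include d in
theorem char [IsAlgClosed (ResidueField V)] : CharP (ResidueField V) l := by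
  haveI := Fact.mk d.hl
  exact FrobTrace.charP_residueField d.above

/-- The model of level `n`. -/
def model [IsAlgClosed (ResidueField V)] : Specialization.Model (residue V) d.FC d.Fb :=
  frameModel d.low (toLL κ) (toLL_surjective κ) d.fr d.red₀ d.red₀_surj d.le d.e d.coe_e rfl
    residue_surjective

theorem model_res [IsAlgClosed (ResidueField V)] {f : d.FC} {g : d.Fb} :
    d.model.Res f g ↔ (laurentReduction (residue V) d.FC).Res f
      (g : LaurentSeries (ResidueField V)) :=
  frameModel_res ..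

theorem model_smooth [IsAlgClosed (ResidueField V)] [IsFunctionField LL d.FC]
    [IsFunctionField (ResidueField V) d.Fb] : d.model.Smooth :=
  frameModel_smooth ..

theorem res_psi [IsAlgClosed (ResidueField V)] [IsFunctionField LL d.FC]
    [IsFunctionField (ResidueField V) d.Fb] (g : SL(2, ℤ)) {f : d.FC} {f' : d.Fb}
    (h : d.model.Res f f') :
    d.model.Res (d.low.psi (toLL κ) (toLL_surjective κ) g f)
      (d.fr.psi d.red₀ d.red₀_surj g f') := by
  have key : ∀ x : modRing d.S (M0 * N'), d.model.Res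
      (d.low.redF (toLL κ) (toLL_surjective κ) (modIncl d.le x))
      (d.fr.redF d.red₀ d.red₀_surj x) := fun x =>
    d.model_res.2 (res_redF d.low (toLL κ) (toLL_surjective κ) d.red₀ d.le d.e d.coe_e rfl x)
  have htr : ∀ x : modRing d.S (M0 * N'),
      transl g (modIncl d.le x) = modIncl d.le (transl g x) := fun x =>
    Subtype.ext (funext fun τ => by rw [transl_apply, coe_modIncl, coe_modIncl, transl_apply])
  refine res_map_of_lifts d.model (d.low.psi (toLL κ) (toLL_surjective κ) g).toRingHom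
    (d.fr.psi d.red₀ d.red₀_surj g).toRingHom (fix_adjoin (fun c => AlgHom.commutes _ c) ?_)
    (fix_adjoin (fun c => AlgHom.commutes _ c) ?_) (fun w => ?_) h
  · exact psi_jj d.low (toLL κ) (toLL_surjective κ) g
  · exact psi_jj d.fr d.red₀ d.red₀_surj g
  · obtain ⟨a, b, hb, rfl⟩ := d.fr.exists_frac d.red₀ d.red₀_surj w
    refine ⟨_, (key a).div (key b) hb, ?_⟩
    show d.model.Res (d.low.psi (toLL κ) (toLL_surjective κ) g _)
      (d.fr.psi d.red₀ d.red₀_surj g _)
    rw [map_div₀, map_div₀, d.low.psi_redF, d.low.psi_redF, d.fr.psi_redF, d.fr.psi_redF, htr, htr]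
    exact (key _).div (key _) (d.fr.redF_transl_ne d.red₀ d.red₀_surj g hb)

theorem eq_grp0 : grp0 (M0 * N') l = grp0 (M0 * N') l ∨ grp0 (M0 * N') l = grp1 (M0 * N') l :=
  Or.inl rfl

/-- The inclusion of the field of level `n`. -/
def alpha : d.FC →ₐ[LL] d.F₀ := incl d.low d.top inf_le_left

theorem coe_alpha (x : d.FC) : (d.alpha x : LaurentSeries LL) = (x : LaurentSeries LL) := rfl

variable [Fact l.Prime]

/-- The involution of `F₀`. -/
def swap : d.F₀ →ₐ[LL] d.F₀ := wInv d.cop (Or.inl rfl)

theorem swap_swap (x : d.F₀) : d.swap (d.swap x) = x := wInv_wInv d.cop (Or.inl rfl) x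

theorem coe_swap_alpha (x : d.FC) : (d.swap (d.alpha x) : LaurentSeries LL) =
    qExpand LL l (d.low.psi (toLL κ) (toLL_surjective κ) ModularGroup.S x : LaurentSeries LL) :=
  coe_wInv_incl d.low d.top d.cop _ inf_le_left x

theorem finrankAlong_alpha [IsFunctionField LL d.FC] [IsFunctionField LL d.F₀] :
    finrankAlong LL d.alpha = l + 1 := by
  classical
  let H := grp0 (M0 * N') l
  let φ₀ := toLL κ
  have hφ₀ := toLL_surjective κ
  have hle : pmGamma (M0 * (N' * l)) ≤ H :=
    (pmGamma_le_grp1 (M := M0 * (N' * l)) (n := M0 * N') (l := l) ⟨l, by ring⟩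
      ⟨M0 * N', by ring⟩).trans (grp1_le_grp0 _ _)
  have hT : ModularGroup.T ^ ((M0 * N' : ℕ) : ℤ) ∈ H := by
    have hd : ∀ x : ℤ, (x : ZMod (M0 * N')) = 0 →
        ModularGroup.T ^ x ∈ CongruenceSubgroup.Gamma (M0 * N') := fun x h0 => by
      simp [CongruenceSubgroup.Gamma_mem, ModularGroup.coe_T_zpow, h0]
    refine ⟨Or.inl (hd _ ?_), CongruenceSubgroup.Gamma0_mem.mpr (by simp [ModularGroup.coe_T_zpow, -zpow_natCast])⟩
    rw [Int.cast_natCast, ZMod.natCast_self]
  let u : d.F₀ →ₐ[LL] d.top.fixedFld φ₀ hφ₀ H :=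
    (up H).codRestrict (d.top.fixedFld φ₀ hφ₀ H).toSubalgebra up_mem
  let e : d.F₀ ≃ₐ[LL] d.top.fixedFld φ₀ hφ₀ H :=
    AlgEquiv.ofBijective u ⟨u.toRingHom.injective, fun z => by
      obtain ⟨x, hx⟩ := exists_up_of_fixed (P' := d.top) hT z.2
      exact ⟨x, Subtype.ext hx⟩⟩
  set jE : d.top.fixedFld φ₀ hφ₀ H := ⟨d.top.jj φ₀ hφ₀, d.top.jj_mem_fixedFld φ₀ hφ₀ H⟩
  set j0 : d.FC := d.low.jj φ₀ hφ₀
  have hj : e (d.alpha j0) = jE := by
    refine Subtype.ext (Subtype.ext ((coe_up (d.alpha j0)).trans ?_))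
    show qExpand LL l (d.low.jj φ₀ hφ₀ : LaurentSeries LL) = (d.top.jj φ₀ hφ₀ : LaurentSeries LL)
    rw [d.low.coe_jj, d.top.coe_jj, jAt_one_left, jAt_one_left, jqNModC, jqNModC,
      qExpand_qExpand]
    congr 1
    ring_nf
  have hmap : LL⟮d.alpha j0⟯.map e.toAlgHom = LL⟮jE⟯ := by
    rw [IntermediateField.adjoin_map, Set.image_singleton]
    exact congrArg _ (congrArg _ hj)
  let e' : LL⟮d.alpha j0⟯ ≃ₐ[LL] LL⟮jE⟯ :=
    (LL⟮d.alpha j0⟯.equivMap e.toAlgHom).trans (IntermediateField.equivOfEq hmap)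
  have h1 : Module.finrank LL⟮d.alpha j0⟯ d.F₀ = H.index :=
    (Algebra.finrank_eq_of_equiv_equiv e'.toRingEquiv e.toRingEquiv (RingHom.ext fun _ => rfl)).trans
      ((d.top.finrank_fixedFld φ₀ hφ₀ hle).trans rfl)
  letI := algebraAlong d.alpha
  haveI := isScalarTower_along d.alpha
  have h3 := Kronecker.finrank_adjoin_algebraMap (K := LL) (F := d.FC) (F' := d.F₀) j0
  change Module.finrank LL⟮d.alpha j0⟯ d.F₀ = _ at h3
  have h4 : Module.finrank LL⟮j0⟯ d.FC = (pmGamma (M0 * N')).index :=
    d.low.finrank_jj φ₀ hφ₀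
  rw [h1, index_grp0 d.cop, h4] at h3
  show Module.finrank d.FC d.F₀ = l + 1
  exact (Nat.eq_of_mul_eq_mul_right (Nat.pos_of_ne_zero Subgroup.FiniteIndex.index_ne_zero)
    (h3.trans (mul_comm _ _))).symm

variable [IsAlgClosed (ResidueField V)] [CharP (ResidueField V) l]
  [IsFunctionField LL d.FC] [IsFunctionField LL d.F₀] [IsFunctionField (ResidueField V) d.Fb]

/-- The reductions into the series field. -/
def pre : PreSheet (residue V) d.FC d.F₀ d.Fb l where
  MC := d.model
  α := d.alpha
  β := d.swap.comp d.alpha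
  Q₁ := laurentReduction (residue V) d.F₀
  Q₂ := comapReduction d.swap (laurentReduction (residue V) d.F₀)
  V := specV d.fr d.red₀ d.red₀_surj l d.cop
  α₁ f g h := laurentReduction_compat (fld_le_fldQ d.low d.top inf_le_left) (d.model_res.1 h)
  α₂ f g h := by
    rw [comapReduction_res, coe_specV]
    exact laurentReduction_map (φA := qExpand V l) (φL := qExpand LL l)
      (fun y => (coeffMap_qExpand V.subtype l y).symm)
      (fun y => (coeffMap_qExpand (residue V) l y).symm)
      (d.model_res.1 (d.res_psi ModularGroup.S h)) (d.coe_swap_alpha f)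
  β₁ f g h := by
    rw [coe_specV]
    exact laurentReduction_map (φA := qExpand V l) (φL := qExpand LL l)
      (fun y => (coeffMap_qExpand V.subtype l y).symm)
      (fun y => (coeffMap_qExpand (residue V) l y).symm)
      (d.model_res.1 (d.res_psi ModularGroup.S h)) (d.coe_swap_alpha f)
  β₂ f g h := by
    rw [comapReduction_res, AlgHom.comp_apply, swap_swap]
    exact laurentReduction_compat (fld_le_fldQ d.low d.top inf_le_left) (d.model_res.1 h)
  V_xb := specV_jj d.fr d.red₀ d.red₀_surj l d.cop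
  one_lt := d.hl.one_lt
  indepV c h := indep_specV d.fr d.red₀ d.red₀_surj l d.cop c h
  degree := d.finrankAlong_alpha
  arch t c ht := by
    rcases eq_or_ne (t : LL) 0 with h0 | h0
    · refine ⟨1, by simp [h0, V.zero_mem], ?_⟩
      rw [← map_zero (residue V)]
      congr 1
      exact Subtype.ext (by simp [h0])
    rcases eq_or_ne c 0 with hc | hc
    · refine ⟨0, by simp [hc, V.zero_mem], ?_⟩
      rw [← map_zero (residue V)]
      congr 1
      exact Subtype.ext (by simp [hc])
    obtain ⟨N, hN⟩ := Specialization.rankOne_residue d.above t c⁻¹ ht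
      (fun e => h0 (by rw [e]; rfl)) (inv_ne_zero hc)
    have hmem : c * (t : LL) ^ N ∈ V := by
      have := (V.mem_or_inv_mem (c⁻¹ / (t : LL) ^ N)).resolve_left hN
      rwa [inv_div, div_inv_eq_mul, mul_comm] at this
    refine ⟨N, hmem, Specialization.Reduction.map_eq_zero_of_inv_notMem residue_surjective ?_⟩
    simpa [mul_inv_rev, div_eq_mul_inv, mul_comm] using hN
  exists_nonunit := ⟨(l : V), by rw [map_natCast, CharP.cast_eq_zero],
    Nat.cast_ne_zero.2 d.hl.ne_zero⟩

/-- The two sheets. -/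
def sheet : Sheet (residue V) d.FC d.Fb d.F₀ l := d.pre.sheet

theorem coe_X : (d.sheet.X : LaurentSeries LL) = jAt (1 : LLˣ) (M0 * N') :=
  d.low.coe_jj (toLL κ) (toLL_surjective κ)

theorem coe_Y : (d.sheet.β d.sheet.MC.x : LaurentSeries LL) =
    qExpand LL l (jAt (1 : LLˣ) (M0 * N')) := by
  show (d.swap (d.alpha (d.low.jj (toLL κ) (toLL_surjective κ))) : LaurentSeries LL) = _
  rw [coe_swap_alpha, psi_jj, d.low.coe_jj]

theorem relation : ((modularPolynomialData l).Φ.map (evalAt d.sheet.X)).eval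
    (d.sheet.β d.sheet.MC.x) = 0 := by
  refine d.F₀.val.toRingHom.injective ?_
  rw [map_zero, Kronecker.evalRel_map]
  show ((modularPolynomialData l).Φ.map (evalAt (d.sheet.X : LaurentSeries LL))).eval
    (d.sheet.β d.sheet.MC.x : LaurentSeries LL) = 0
  have h := congrArg (qExpand LL (M0 * N'))
    (eval_modularPolynomial LL (modularPolynomialData l))
  rw [Kronecker.evalRel_map, map_zero] at h
  rw [coe_X, coe_Y, jAt_one_left, jqNModC, qExpand_qExpand]
  rw [jqNModC, qExpand_qExpand] at h
  simp only [Nat.mul_comm (M0 * N') l] at h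
  exact h

theorem relation_swap : ((modularPolynomialData l).Φ.map
    (evalAt (d.sheet.β d.sheet.MC.x))).eval d.sheet.X = 0 := by
  have h := congrArg d.swap.toRingHom d.relation
  rw [Kronecker.evalRel_map, map_zero] at h
  have e : d.sheet.X = d.alpha d.sheet.MC.x := rfl
  rw [e] at h ⊢
  change ((modularPolynomialData l).Φ.map (evalAt (d.swap (d.alpha d.sheet.MC.x)))).eval
    (d.swap (d.swap (d.alpha d.sheet.MC.x))) = 0 at h
  rwa [swap_swap] at h

theorem sheet_good : d.sheet.Good :=
  good_of_modular d.sheet d.model_smooth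
    (exists_root_specV d.fr d.red₀ d.red₀_surj l d.cop) d.relation d.relation_swap

theorem sheet_res₁ {f : d.F₀} {g : d.Fb} : d.sheet.R₁.Res f g ↔
    (laurentReduction (residue V) d.F₀).Res f (g : LaurentSeries (ResidueField V)) :=
  d.pre.sheet_res₁

theorem sheet_res₂ {f : d.F₀} {g : d.Fb} : d.sheet.R₂.Res f g ↔
    (laurentReduction (residue V) d.F₀).Res (d.swap f) (g : LaurentSeries (ResidueField V)) :=
  d.pre.sheet_res₂

end Data

end FLTAgent.Lowering.P3.Levels
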