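import Fermat.Agent.Specialization.Model

/-!
# Automorphisms over the coordinate commute with the reduction of a model
-/

set_option autoImplicit false
set_option linter.style.haveILetI false
set_option linter.unusedSectionVars false

noncomputable section

namespace FLTAgent.Lowering.P3.Levels

open AlgebraicCurve FLTAgent.Curves FLTAgent.Specialization IntermediateField

variable {L k : Type*} [Field L] [Field k] [IsAlgClosed L] [IsAlgClosed k] {A : ValuationSubring L}
  {π : A →+* k} {F Fb : Type*} [Field F] [Field Fb] [Algebra L F] [Algebra k Fb]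
  [IsFunctionField L F] [IsFunctionField k Fb] (M : Model π F Fb)

/-- An endomorphism fixing the coordinate field which has compatible lifts commutes with the
reduction. -/
theorem res_map_of_lifts (σ : F →+* F) (σb : Fb →+* Fb) (hσ : ∀ a ∈ L⟮M.x⟯, σ a = a)
    (hσb : ∀ c ∈ k⟮M.xb⟯, σb c = c) (hlift : ∀ w, ∃ u, M.Res u w ∧ M.Res (σ u) (σb w))
    {f : F} {g : Fb} (h : M.Res f g) : M.Res (σ f) (σb g) := by
  classical
  obtain ⟨u₀, w, -, hw, -, hwspan⟩ := M.exists_basis
  choose u huw huσ using fun i => hlift (w i)
  set R₀ := Reduction.lineReduction M.x_res M.transcendental M.surj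
  haveI := finiteDimensional_adjoin (K := L) M.transcendental_x
  haveI := finiteDimensional_adjoin (K := k) M.transcendental
  haveI : Nonempty (Fin (Module.finrank k⟮M.xb⟯ Fb)) := ⟨⟨0, Module.finrank_pos⟩⟩
  have hu : LinearIndependent L⟮M.x⟯ u :=
    Reduction.linearIndependent_of_res (Reduction.lineReduction_compat M.x_res M.transcendental
      M.surj) huw (Reduction.lineReduction_total M.x_res M.transcendental M.surj) hw
  have hspan := hu.span_eq_top_of_card_eq_finrank (by rw [Fintype.card_fin, M.finrank_eq])
  obtain ⟨a, rfl⟩ := (Submodule.mem_span_range_iff_exists_fun _).1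
    (hspan ▸ Submodule.mem_top : f ∈ Submodule.span L⟮M.x⟯ (Set.range u))
  have hres : ∀ {s : L⟮M.x⟯}, (∀ i, s * a i ∈ R₀.O) → ∃ c : Fin _ → k⟮M.xb⟯,
      (∀ i, M.Res ((s * a i : L⟮M.x⟯) : F) (c i : Fb)) ∧
        M.Res ((s : F) * ∑ i, a i • u i) (∑ i, c i • w i) := by
    intro s hs
    choose c hc using fun i => R₀.exists_res_of_mem (hs i)
    refine ⟨c, fun i => Reduction.restrict_res_iff.1 (hc i), ?_⟩
    rw [Finset.mul_sum]
    refine Reduction.Res.sum fun i _ => ?_
    have h1 := (Reduction.restrict_res_iff.1 (hc i)).mul (huw i)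
    simpa [IntermediateField.smul_def, mul_assoc] using h1
  have hint : ∀ i, a i ∈ R₀.O := by
    intro i
    by_cases ha : a = 0
    · simp [ha, zero_mem]
    obtain ⟨s, j, hs, hj⟩ := (Reduction.lineReduction_total M.x_res M.transcendental
      M.surj).exists_scale_family ha
    obtain ⟨c, hc, hsum⟩ := hres hs
    by_cases hs0 : M.Res (s : F) 0
    · exfalso
      have h1 := hs0.mul h
      rw [zero_mul] at h1
      have hzero := Fintype.linearIndependent_iff.1 hw c (hsum.unique h1) j
      have hcj := hc j
      rw [hj, hzero] at hcj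
      exact one_ne_zero (M.res_one.unique (by simpa using hcj))
    · have hs' : (s : L⟮M.x⟯)⁻¹ ∈ R₀.O :=
        (Reduction.lineReduction_total M.x_res M.transcendental M.surj).inv_mem_of_not_res
          fun h0 => hs0 (Reduction.restrict_res_iff.1 h0)
      have hsne : s ≠ 0 := left_ne_zero_of_mul_eq_one hj
      rw [show a i = s⁻¹ * (s * a i) from (inv_mul_cancel_left₀ hsne _).symm]
      exact mul_mem hs' (hs i)
  obtain ⟨c, hc, hsum⟩ := hres (s := 1) fun i => by rw [one_mul]; exact hint i
  have hg : g = ∑ i, c i • w i := by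
    refine h.unique ?_
    simpa using hsum
  rw [hg, map_sum, map_sum]
  refine Reduction.Res.sum fun i _ => ?_
  have h1 := (hc i).mul (huσ i)
  rw [one_mul] at h1
  simpa [IntermediateField.smul_def, hσ _ (a i).2, hσb _ (c i).2] using h1

/-- Fixing a point fixes the field it generates. -/
theorem fix_adjoin {σ : F →+* F} {x : F} (hc : ∀ c, σ (algebraMap L F c) = algebraMap L F c)
    (hx : σ x = x) : ∀ a ∈ L⟮x⟯, σ a = a := by
  intro a ha
  induction ha using IntermediateField.adjoin_induction with
  | mem z hz => rw [Set.mem_singleton_iff.1 hz, hx]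
  | algebraMap c => exact hc c
  | add x y _ _ hx hy => rw [map_add, hx, hy]
  | inv x _ hx => rw [map_inv₀, hx]
  | mul x y _ _ hx hy => rw [map_mul, hx, hy]

end FLTAgent.Lowering.P3.Levels
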