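import Fermat.Agent.Lowering.P3.Levels.Equivariant
import Fermat.Agent.Lowering.P3.Levels.Setup

/-!
# Conjugation by `diag(1, c)` modulo `M` on congruence groups
-/

set_option autoImplicit false
set_option linter.unusedSectionVars false
set_option maxHeartbeats 800000

noncomputable section

open scoped MatrixGroups

namespace FLTAgent.Lowering.P3.Levels

open FLTAgent.DeligneSerre

variable {M : ℕ} {c : ℤ}

theorem ConjRel.one : ConjRel M c 1 1 := ⟨rfl, by simp, by simp, rfl⟩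

theorem ConjRel.mul (hc : IsUnit ((c : ℤ) : ZMod M)) {g g' h h' : SL(2, ℤ)}
    (hg : ConjRel M c g g') (hh : ConjRel M c h h') : ConjRel M c (g * h) (g' * h') := by
  constructor <;>
    simp only [Matrix.SpecialLinearGroup.coe_mul, Matrix.mul_apply, Fin.sum_univ_two] <;>
    push_cast
  · refine hc.mul_left_cancel ?_
    rw [hg.h00, hh.h00, hg.h01, ← hh.h10]
    ring
  · rw [hg.h00, hh.h01, hg.h01, hh.h11]
    ring
  · rw [hh.h00, ← hg.h10, hg.h11, ← hh.h10]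
    ring
  · refine hc.mul_left_cancel ?_
    rw [← hg.h10, hh.h01, hg.h11, hh.h11]
    ring

theorem ConjRel.inv {g g' : SL(2, ℤ)} (h : ConjRel M c g g') : ConjRel M c g⁻¹ g'⁻¹ := by
  constructor <;> simp [Matrix.SpecialLinearGroup.coe_inv, Matrix.adjugate_fin_two]
  · exact h.h11
  · rw [h.h01]
  · rw [← h.h10]
  · exact h.h00

theorem exists_diag (hc : IsUnit ((c : ℤ) : ZMod M)) : ∃ g : SL(2, ℤ),
    ((g 0 0 : ℤ) : ZMod M) * (c : ZMod M) = 1 ∧ ((g 0 1 : ℤ) : ZMod M) = 0 ∧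
      ((g 1 0 : ℤ) : ZMod M) = 0 ∧ g 1 1 ≡ c [ZMOD M] := by
  obtain ⟨u, hu⟩ := hc
  obtain ⟨x, hx⟩ := ZMod.intCast_surjective (n := M) ((u⁻¹ : (ZMod M)ˣ) : ZMod M)
  have h1 : ((x * c - 1 : ℤ) : ZMod M) = 0 := by
    push_cast
    rw [hx, ← hu, Units.inv_mul, sub_self]
  obtain ⟨y, hy⟩ := (ZMod.intCast_zmod_eq_zero_iff_dvd _ _).mp h1
  let g : SL(2, ℤ) := ⟨!![x + M * y * 0, y * 1; (M : ℤ), c], by
    rw [Matrix.det_fin_two_of]; linear_combination hy⟩
  -- remove the upper right entry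
  obtain ⟨t, ht⟩ := ZMod.intCast_surjective (n := M) (-((y : ZMod M) * ((u⁻¹ : (ZMod M)ˣ) : ZMod M)))
  have e : ∀ i j, (ModularGroup.T ^ t * g : SL(2, ℤ)) i j =
      (!![1, t; 0, 1] * !![x + M * y * 0, y * 1; (M : ℤ), c]) i j := fun i j => by
    rw [Matrix.SpecialLinearGroup.coe_mul, ModularGroup.coe_T_zpow]
  refine ⟨ModularGroup.T ^ t * g, ?_, ?_, ?_, ?_⟩ <;> rw [e]
  · simp [Matrix.mul_apply, Fin.sum_univ_two, hx, ← hu]
  · simp [Matrix.mul_apply, Fin.sum_univ_two, ht, ← hu, mul_assoc]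
  · simp [Matrix.mul_apply, Fin.sum_univ_two]
  · simp [Matrix.mul_apply, Fin.sum_univ_two]

theorem exists_conjRel (hc : IsUnit ((c : ℤ) : ZMod M)) (h : SL(2, ℤ)) :
    ∃ g, ConjRel M c g h := by
  let G : Subgroup SL(2, ℤ) :=
    { carrier := {h | ∃ g, ConjRel M c g h}
      one_mem' := ⟨1, ConjRel.one⟩
      mul_mem' := fun ⟨a, ha⟩ ⟨b, hb⟩ => ⟨a * b, ha.mul hc hb⟩
      inv_mem' := fun ⟨a, ha⟩ => ⟨a⁻¹, ha.inv⟩ }
  have hS : ModularGroup.S ∈ G := by
    obtain ⟨d, h1, h2, h3, h4⟩ := exists_diag hc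
    have h4' : ((d 1 1 : ℤ) : ZMod M) = c := (ZMod.intCast_eq_intCast_iff _ _ _).mpr h4
    refine ⟨d * ModularGroup.S, ⟨?_, ?_, ?_, ?_⟩⟩ <;>
      rw [Matrix.SpecialLinearGroup.coe_mul, ModularGroup.coe_S] <;>
      simp [Matrix.mul_apply, Fin.sum_univ_two, h2, h3, h4']
    rw [mul_comm]; exact h1.symm
  have hT : ModularGroup.T ∈ G := by
    obtain ⟨u, hu⟩ := hc
    obtain ⟨t, ht⟩ := ZMod.intCast_surjective (n := M) ((u⁻¹ : (ZMod M)ˣ) : ZMod M)
    refine ⟨ModularGroup.T ^ t, ⟨?_, ?_, ?_, ?_⟩⟩ <;>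
      simp [ModularGroup.coe_T_zpow, ModularGroup.coe_T, ht, ← hu]
  have htop : G = ⊤ := by
    refine eq_top_iff.2 ?_
    rw [← SpecialLinearGroup.SL2Z_generators, Subgroup.closure_le]
    rintro g (rfl | rfl)
    exacts [hS, hT]
  exact (htop ▸ Subgroup.mem_top h : h ∈ G)

variable {n l : ℕ}

/-- Conjugation preserves the two groups. -/
theorem ConjRel.mem (hn : n ∣ M) (hl : l ∣ M) (hc : IsUnit ((c : ℤ) : ZMod M))
    {H : Subgroup SL(2, ℤ)} (hH : H = grp0 n l ∨ H = grp1 n l) {g g' : SL(2, ℤ)}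
    (h : ConjRel M c g g') (hg' : g' ∈ H) : g ∈ H := by
  have cast : ∀ {d : ℕ} (hd : d ∣ M) {a b : ℤ}, ((a : ℤ) : ZMod M) = (b : ℤ) →
      ((a : ℤ) : ZMod d) = (b : ℤ) := fun {d} hd {a b} hab => by
    simpa using congrArg (ZMod.castHom hd (ZMod d)) hab
  have e00 := fun {d} (hd : d ∣ M) => cast hd h.h00
  have e11 := fun {d} (hd : d ∣ M) => cast hd h.h11
  have e01 := fun {d} (hd : d ∣ M) => cast hd (a := g' 0 1) (b := c * g 0 1)
    (by push_cast; exact h.h01)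
  have e10 := fun {d} (hd : d ∣ M) => cast hd (a := c * g' 1 0) (b := g 1 0)
    (by push_cast; exact h.h10)
  have hcn : IsUnit ((c : ℤ) : ZMod n) := by
    simpa using hc.map (ZMod.castHom hn (ZMod n))
  have h0 : grp0 n l ≥ H := by rcases hH with rfl | rfl <;> [exact le_rfl; exact grp1_le_grp0 n l]
  obtain ⟨hpm, hΓ0⟩ := h0 hg'
  have hpm' : g ∈ pmGamma n := by
    have a01 := e01 hn
    have a10 := e10 hn
    push_cast at a01 a10
    rcases hpm with hm | hm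
    · left
      rw [CongruenceSubgroup.Gamma_mem] at hm ⊢
      obtain ⟨m00, m01, m10, m11⟩ := hm
      rw [m01, eq_comm, hcn.mul_right_eq_zero] at a01
      rw [m10, mul_zero] at a10
      exact ⟨by rw [← e00 hn, m00], a01, a10.symm, by rw [← e11 hn, m11]⟩
    · right
      rw [CongruenceSubgroup.Gamma_mem] at hm ⊢
      simp only [Matrix.SpecialLinearGroup.coe_neg, Matrix.neg_apply, Int.cast_neg,
        neg_eq_zero] at hm ⊢
      obtain ⟨m00, m01, m10, m11⟩ := hm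
      rw [m01, eq_comm, hcn.mul_right_eq_zero] at a01
      rw [m10, mul_zero] at a10
      exact ⟨by rw [← e00 hn, m00], a01, a10.symm, by rw [← e11 hn, m11]⟩
  have b10 : ((g 1 0 : ℤ) : ZMod l) = 0 := by
    have a10 := e10 hl
    push_cast at a10
    rw [← a10, CongruenceSubgroup.Gamma0_mem.mp hΓ0, mul_zero]
  rcases hH with rfl | rfl
  · exact ⟨hpm', CongruenceSubgroup.Gamma0_mem.mpr b10⟩
  · refine ⟨hpm', mem_pmGamma1_iff.mpr ⟨b10, ?_⟩⟩
    rw [← e11 hl]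
    exact (mem_pmGamma1_iff.mp hg'.2).2

end FLTAgent.Lowering.P3.Levels
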