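import Fermat.Agent.DeligneSerre.Smooth.Full
import Fermat.Agent.DeligneSerre.Field.Gens

/-!
# Automorphisms of the coefficients acting on the field of level `±Γ(n)`

An automorphism `τ` of the coefficients with `τ ξ = ξ ^ c` preserves the field and turns the
translate by `g` into the translate by `diag(1, c) g diag(1, c)⁻¹`.
-/

set_option autoImplicit false
set_option linter.unusedSectionVars false
set_option linter.style.haveILetI false
set_option maxHeartbeats 800000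
set_option synthInstance.maxHeartbeats 100000

noncomputable section

open UpperHalfPlane hiding I I_re I_im
open Filter Topology Complex Function FLTAgent.ModEq FLTAgent.GoodModel ModularCurve
open scoped MatrixGroups IntermediateField

namespace FLTAgent.Lowering.P3.Levels

open FLTAgent.DeligneSerre

section Series

variable {R : Type*} [CommRing R] (n : ℕ) [NeZero n]

/-- The series of a difference at two vectors. -/
def wSer (ξ : Rˣ) (p e : Vec) : LaurentSeries R :=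
  HahnSeries.ofPowerSeries ℤ R (wser n p.1 (ξ ^ p.2) - wser n e.1 (ξ ^ e.2))

variable {n}

theorem isUnit_one_sub_pow {ξ : Rˣ}
    (hξ : ∀ i : ℤ, ¬ (n : ℤ) ∣ i → IsUnit (1 - ((ξ ^ i : Rˣ) : R))) {v : Vec} (hv : Nz n v)
    (h : (n : ℤ) ∣ v.1) : IsUnit (1 - ((ξ ^ v.2 : Rˣ) : R)) := hξ _ fun h2 => by
  rcases hv with hv | hv
  · exact hv ((ZMod.intCast_zmod_eq_zero_iff_dvd _ _).mpr h)
  · exact hv ((ZMod.intCast_zmod_eq_zero_iff_dvd _ _).mpr h2)

theorem coeffMap_wSer {R' : Type*} [CommRing R'] (f : R →+* R') {ξ : Rˣ}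
    (hξ : ∀ i : ℤ, ¬ (n : ℤ) ∣ i → IsUnit (1 - ((ξ ^ i : Rˣ) : R))) {p e : Vec} (hp : Nz n p)
    (he : Nz n e) : coeffMap f (wSer n ξ p e) = wSer n (Units.map (f : R →* R') ξ) p e := by
  rw [wSer, wSer, ← map_zpow, ← map_zpow, ← map_wser f p.1 _ fun h => isUnit_one_sub_pow hξ hp h,
    ← map_wser f e.1 _ fun h => isUnit_one_sub_pow hξ he h, ← map_sub (PowerSeries.map f)]
  ext k
  rw [coeffMap_coeff]
  rcases lt_or_ge k 0 with hk | hk
  · rw [ofPowerSeries_coeff_of_neg _ hk, ofPowerSeries_coeff_of_neg _ hk, map_zero]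
  · lift k to ℕ using hk
    rw [HahnSeries.ofPowerSeries_apply_coeff, HahnSeries.ofPowerSeries_apply_coeff,
      PowerSeries.coeff_map]

/-- Scaling of the second coordinate. -/
def scaleVec (c : ℤ) (v : Vec) : Vec := (v.1, c * v.2)

theorem wSer_scale (ξ : Rˣ) (c : ℤ) (p e : Vec) :
    wSer n (ξ ^ c) p e = wSer n ξ (scaleVec c p) (scaleVec c e) := by
  simp only [wSer, scaleVec, ← zpow_mul]

theorem sPairs_wSer {S : Subring ℂ} (ζ : Sˣ) (hζ : ((ζ : S) : ℂ) = zetaN n)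
    (hu : IsUnit ((n : ℕ) : S)) {p e : Vec} (hp : Nz n p) (he : Nz n e) :
    (wdiff n p e, wSer n ζ p e) ∈ sPairs S n := by
  refine mem_sPairs.mpr ⟨mdiff_wdiff hp he, ?_⟩
  rw [sIncl, coeffMap_wSer S.subtype (isUnit_one_sub ζ hζ hu) hp he,
    show Units.map (S.subtype : S →* ℂ) ζ = zetaN n from Units.ext hζ]
  exact hasExp_wv_sub hp he

end Series

section Vectors

variable {n : ℕ}

/-- Four vectors defining a function of level `n`. -/
structure Good4 (n : ℕ) (p e a b : Vec) : Prop where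
  hp : Nz n p
  he : Nz n e
  ha : Nz n a
  hb : Nz n b
  hab : ¬ PMEq n a b

theorem Good4.vmul {p e a b : Vec} (h : Good4 n p e a b) (g : SL(2, ℤ)) :
    Good4 n (GoodModel.vmul p g) (GoodModel.vmul e g) (GoodModel.vmul a g)
      (GoodModel.vmul b g) :=
  ⟨h.hp.vmul g, h.he.vmul g, h.ha.vmul g, h.hb.vmul g, by rw [PMEq.vmul_iff]; exact h.hab⟩

theorem nz_scale {c : ℤ} (hc : IsUnit ((c : ℤ) : ZMod n)) {v : Vec} (h : Nz n v) :
    Nz n (scaleVec c v) := by
  rcases h with h | h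
  · exact Or.inl h
  · exact Or.inr (by simpa [scaleVec, hc.mul_right_eq_zero] using h)

theorem Good4.scale {c : ℤ} (hc : IsUnit ((c : ℤ) : ZMod n)) {p e a b : Vec}
    (h : Good4 n p e a b) :
    Good4 n (scaleVec c p) (scaleVec c e) (scaleVec c a) (scaleVec c b) := by
  refine ⟨nz_scale hc h.hp, nz_scale hc h.he, nz_scale hc h.ha, nz_scale hc h.hb, ?_⟩
  rintro (⟨h1, h2⟩ | ⟨h1, h2⟩)
  · refine h.hab (Or.inl ⟨h1, hc.mul_left_cancel ?_⟩)
    simpa [scaleVec] using h2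
  · refine h.hab (Or.inr ⟨h1, hc.mul_left_cancel ?_⟩)
    simpa [scaleVec] using h2

/-- `g'` is congruent to `diag(1, c) g diag(1, c)⁻¹` modulo `n`. -/
structure ConjRel (n : ℕ) (c : ℤ) (g g' : SL(2, ℤ)) : Prop where
  h00 : ((g' 0 0 : ℤ) : ZMod n) = ((g 0 0 : ℤ) : ZMod n)
  h01 : ((g' 0 1 : ℤ) : ZMod n) = (c : ZMod n) * ((g 0 1 : ℤ) : ZMod n)
  h10 : (c : ZMod n) * ((g' 1 0 : ℤ) : ZMod n) = ((g 1 0 : ℤ) : ZMod n)
  h11 : ((g' 1 1 : ℤ) : ZMod n) = ((g 1 1 : ℤ) : ZMod n)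

theorem ConjRel.vEq {c : ℤ} {g g' : SL(2, ℤ)} (h : ConjRel n c g g') (v : Vec) :
    VEq n (scaleVec c (GoodModel.vmul v g)) (GoodModel.vmul (scaleVec c v) g') := by
  constructor
  · simp only [scaleVec, GoodModel.vmul]
    push_cast
    rw [h.h00, ← h.h10]
    ring
  · simp only [scaleVec, GoodModel.vmul]
    push_cast
    rw [h.h01, h.h11]
    ring

theorem wv_mul_right (M k : ℕ) [NeZero k] (a b : ℤ) (τ : ℍ) :
    wv (M * k) (a * k) (b * k) τ = wv M a b τ := by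
  have hk : (k : ℂ) ≠ 0 := Nat.cast_ne_zero.mpr (NeZero.ne k)
  simp only [wv]
  congr 1
  push_cast
  rw [mul_comm (a : ℂ), mul_comm (b : ℂ), mul_assoc, ← mul_add, mul_comm (M : ℂ),
    mul_div_mul_left _ _ hk]

theorem wdiff_mul_right (M k : ℕ) [NeZero M] [NeZero k] [NeZero (M * k)] (v v' : Vec) :
    wdiff (M * k) (v.1 * k, v.2 * k) (v'.1 * k, v'.2 * k) = wdiff M v v' := by
  funext τ
  simp only [wdiff, wv_mul_right]

end Vectors

/-! ### Functions of level `n` from four vectors -/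

variable {S : Subring ℂ} {M0 N' : ℕ} [NeZero M0] [NeZero N'] [NeZero (M0 * N')]
  (P : Frame S M0 N')

/-- The quotient of the differences at four vectors. -/
def wqM {p e a b : Vec} (h : Good4 (M0 * N') p e a b) : modRing S (M0 * N') :=
  ⟨wq (M0 * N') p e a b, wq_mem_modRing P.ξ P.hξ P.hv h.hp h.he h.ha h.hb h.hab⟩

theorem wqM_congr {p e a b p' e' a' b' : Vec} (h : Good4 (M0 * N') p e a b)
    (h' : Good4 (M0 * N') p' e' a' b') (hp : PMEq (M0 * N') p p') (he : PMEq (M0 * N') e e')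
    (ha : PMEq (M0 * N') a a') (hb : PMEq (M0 * N') b b') : wqM P h = wqM P h' := by
  refine Subtype.ext (funext fun τ => ?_)
  show wq (M0 * N') p e a b τ = wq (M0 * N') p' e' a' b' τ
  simp only [wq, wdiff_congr hp he, wdiff_congr ha hb]

theorem transl_wqM {p e a b : Vec} (h : Good4 (M0 * N') p e a b) (g : SL(2, ℤ)) :
    transl g (wqM P h) = wqM P (h.vmul g) := by
  refine Subtype.ext (funext fun τ => ?_)
  rw [transl_apply]
  exact congrFun (compg_wq g p e a b) τ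

theorem red_wqM {K : Type*} [Field K] (φ : S →+* K) {p e a b : Vec}
    (h : Good4 (M0 * N') p e a b) :
    red φ (wqM P h) = wSer (M0 * N') (Units.map (φ : S →* K) P.ξ) p e /
      wSer (M0 * N') (Units.map (φ : S →* K) P.ξ) a b := by
  have hu := isUnit_one_sub P.ξ P.hξ P.hv
  have hm := (sPairs S (M0 * N')).mul_mem (serM_spec (wqM P h))
    (sPairs_wSer P.ξ P.hξ P.hv h.ha h.hb)
  have he' : ((wqM P h : modRing S (M0 * N')) : ℍ → ℂ) * wdiff (M0 * N') a b =
      wdiff (M0 * N') p e := funext fun τ => by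
    simp only [Pi.mul_apply]
    exact div_mul_cancel₀ _ fun h0 => h.hab ((wdiff_eq_zero_iff h.ha h.hb τ).mp h0)
  rw [Prod.mk_mul_mk, he'] at hm
  have hs := congrArg (coeffMap φ) (sPairs_unique hm (sPairs_wSer P.ξ P.hξ P.hv h.hp h.he))
  rw [map_mul, coeffMap_wSer φ hu h.hp h.he, coeffMap_wSer φ hu h.ha h.hb] at hs
  obtain ⟨G, hG⟩ := exists_wdiff_unit P.ξ P.hξ P.hv h.ha h.hb h.hab
  have h0 : wSer (M0 * N') (Units.map (φ : S →* K) P.ξ) a b ≠ 0 := by
    rw [← coeffMap_wSer φ hu h.ha h.hb,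
      ← sPairs_unique hG (sPairs_wSer P.ξ P.hξ P.hv h.ha h.hb)]
    exact (G.isUnit.map (coeffMap φ)).ne_zero
  rw [eq_div_iff h0]
  exact hs

/-- The coordinate of level `M₀` is a quotient of differences of level `n`. -/
theorem exists_hhM : ∃ (p e a b : Vec) (h : Good4 (M0 * N') p e a b), hhM P.C = wqM P h := by
  have e0 : ∀ v : Vec, Nz M0 v → Nz (M0 * N') (v.1 * N', v.2 * N') := fun v hv => by
    rcases hv with h | h
    · refine Or.inl fun h0 => h ?_
      rw [ZMod.intCast_zmod_eq_zero_iff_dvd] at h0 ⊢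
      push_cast at h0
      exact (mul_dvd_mul_iff_right (Int.natCast_ne_zero.2 (NeZero.ne N'))).1 h0
    · refine Or.inr fun h0 => h ?_
      rw [ZMod.intCast_zmod_eq_zero_iff_dvd] at h0 ⊢
      push_cast at h0
      exact (mul_dvd_mul_iff_right (Int.natCast_ne_zero.2 (NeZero.ne N'))).1 h0
  obtain ⟨n1, n2, n3, hab⟩ := base_nz P.hM
  have hne : ¬ PMEq (M0 * N') (((1 : ℤ), (0 : ℤ)).1 * N', ((1 : ℤ), (0 : ℤ)).2 * N')
      (((1 : ℤ), (1 : ℤ)).1 * N', ((1 : ℤ), (1 : ℤ)).2 * N') := fun h => by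
    have h1 := (wdiff_eq_zero_iff (e0 _ n3) (e0 _ n2) UpperHalfPlane.I).mpr h
    rw [wdiff_mul_right] at h1
    exact hab ((wdiff_eq_zero_iff n3 n2 _).mp h1)
  refine ⟨_, _, _, _, ⟨e0 _ n1, e0 _ n2, e0 _ n3, e0 _ n2, hne⟩, Subtype.ext (funext fun τ => ?_)⟩
  show hh M0 τ = wq (M0 * N') _ _ _ _ τ
  simp only [wq, hh]
  exact (congrArg₂ (· / ·) (congrFun (wdiff_mul_right M0 N' (0, 1) (1, 1)) τ)
    (congrFun (wdiff_mul_right M0 N' (1, 0) (1, 1)) τ)).symm

theorem exists_gen {f : invRing (S := S) (M := M0 * N') (pmGamma (M0 * N'))}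
    (hf : f ∈ fullGens P.hM P.ξ P.hξ P.hv P.C) :
    ∃ (p e a b : Vec) (h : Good4 (M0 * N') p e a b), (f : modRing S (M0 * N')) = wqM P h := by
  rcases hf with rfl | ⟨⟨p, hp⟩, rfl⟩
  · exact exists_hhM P
  · obtain ⟨he, ha, hb, hab, -⟩ := level_nz (n := M0 * N') (N' := N') P.hM rfl
    exact ⟨p, _, _, _, ⟨hp, he, ha, hb, hab⟩, rfl⟩

variable {K : Type} [Field K] (φ : S →+* K) (hφ : Surjective φ) (τ : K →+* K) (c : ℤ)
  (hc : IsUnit ((c : ℤ) : ZMod (M0 * N')))
  (hτ : Units.map (τ : K →* K) (Units.map (φ : S →* K) P.ξ) = Units.map (φ : S →* K) P.ξ ^ c)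

include hc hτ in
theorem coeffMap_red_wqM {p e a b : Vec} (h : Good4 (M0 * N') p e a b) :
    coeffMap τ (red φ (wqM P h)) = red φ (wqM P (h.scale hc)) := by
  have hu : ∀ i : ℤ, ¬ ((M0 * N' : ℕ) : ℤ) ∣ i →
      IsUnit (1 - ((Units.map (φ : S →* K) P.ξ ^ i : Kˣ) : K)) := fun i hi => by
    have := (isUnit_one_sub P.ξ P.hξ P.hv i hi).map φ
    rw [map_sub, map_one] at this
    rwa [← map_zpow]
  rw [red_wqM, red_wqM, map_div₀, coeffMap_wSer τ hu h.hp h.he, coeffMap_wSer τ hu h.ha h.hb, hτ,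
    wSer_scale, wSer_scale]

include hφ hc hτ in
theorem coeffMap_mem_fld {x : LaurentSeries K} (hx : x ∈ P.fld φ) :
    coeffMap τ x ∈ P.fld φ := by
  induction hx using IntermediateField.adjoin_induction with
  | mem z hz =>
    rcases hz with rfl | ⟨f, hf, rfl⟩
    · rw [show coeffMap τ (jAt (1 : Kˣ) (M0 * N')) = jAt (1 : Kˣ) (M0 * N') by
        rw [jAt_one_left, coeffMap_jqNModC]]
      exact IntermediateField.subset_adjoin K _ (Set.mem_union_left _ rfl)
    · obtain ⟨p, e, a, b, h, hfe⟩ := exists_gen P hf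
      show coeffMap τ (red φ (f : modRing S (M0 * N'))) ∈ _
      rw [hfe, coeffMap_red_wqM P φ τ c hc hτ h]
      exact (P.spec φ hφ).1 _
  | algebraMap a => rw [coeffMap_algebraMap]; exact IntermediateField.algebraMap_mem _ _
  | add x y _ _ hx hy => rw [map_add]; exact add_mem hx hy
  | inv x _ hx => rw [map_inv₀]; exact inv_mem hx
  | mul x y _ _ hx hy => rw [map_mul]; exact mul_mem hx hy

/-- The action on the field. -/
def galFld : P.fld φ →+* P.fld φ :=
  ((coeffMap τ).comp (P.fld φ).val.toRingHom).codRestrict (P.fld φ)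
    fun x => coeffMap_mem_fld P φ hφ τ c hc hτ x.2

theorem coe_galFld (x : P.fld φ) :
    (galFld P φ hφ τ c hc hτ x : LaurentSeries K) = coeffMap τ (x : LaurentSeries K) := rfl

theorem galFld_psi {g g' : SL(2, ℤ)} (hg : ConjRel (M0 * N') c g g') (x : P.fld φ) :
    galFld P φ hφ τ c hc hτ (P.psi φ hφ g x) = P.psi φ hφ g' (galFld P φ hφ τ c hc hτ x) := by
  obtain ⟨x, hx⟩ := x
  induction hx using IntermediateField.adjoin_induction with
  | mem z hz =>
    rcases hz with rfl | ⟨f, hf, rfl⟩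
    · have hj : ∀ h, (⟨jAt (1 : Kˣ) (M0 * N'), h⟩ : P.fld φ) = P.jj φ hφ := fun h =>
        Subtype.ext (P.coe_jj φ hφ).symm
      have hjτ : galFld P φ hφ τ c hc hτ (P.jj φ hφ) = P.jj φ hφ := Subtype.ext (by
        rw [coe_galFld, P.coe_jj, jAt_one_left, coeffMap_jqNModC])
      have hψ : ∀ k, P.psi φ hφ k (P.jj φ hφ) = P.jj φ hφ := fun k => by
        rw [Frame.jj, P.psi_redF, transl_jm]
      have e : ∀ h : jAt (1 : Kˣ) (M0 * N') ∈ P.fld φ,
          galFld P φ hφ τ c hc hτ (P.psi φ hφ g ⟨_, h⟩) =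
            P.psi φ hφ g' (galFld P φ hφ τ c hc hτ ⟨_, h⟩) := fun h => by
        rw [hj h, hψ, hjτ, hψ]
      exact e _
    · obtain ⟨p, e, a, b, h, hfe⟩ := exists_gen P hf
      have hτw : ∀ {p e a b : Vec} (h : Good4 (M0 * N') p e a b),
          galFld P φ hφ τ c hc hτ (P.redF φ hφ (wqM P h)) =
            P.redF φ hφ (wqM P (h.scale hc)) := fun {p e a b} h => Subtype.ext (by
        rw [coe_galFld, P.coe_redF, P.coe_redF, coeffMap_red_wqM P φ τ c hc hτ h])
      have e : ∀ h' : red φ (f : modRing S (M0 * N')) ∈ P.fld φ,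
          galFld P φ hφ τ c hc hτ (P.psi φ hφ g ⟨_, h'⟩) =
            P.psi φ hφ g' (galFld P φ hφ τ c hc hτ ⟨_, h'⟩) := fun h' => by
        rw [show (⟨_, h'⟩ : P.fld φ) = P.redF φ hφ (wqM P h) from
          Subtype.ext (by rw [P.coe_redF]; exact congrArg (red φ) hfe)]
        rw [P.psi_redF, transl_wqM, hτw, hτw, P.psi_redF, transl_wqM]
        exact congrArg _ (wqM_congr P _ _ (Or.inl (hg.vEq p)) (Or.inl (hg.vEq e))
          (Or.inl (hg.vEq a)) (Or.inl (hg.vEq b)))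
      exact e _
  | algebraMap a =>
    have ha : ∀ h, (⟨algebraMap K (LaurentSeries K) a, h⟩ : P.fld φ) = algebraMap K (P.fld φ) a :=
      fun h => rfl
    have ht : galFld P φ hφ τ c hc hτ (algebraMap K (P.fld φ) a) =
        algebraMap K (P.fld φ) (τ a) := Subtype.ext (coeffMap_algebraMap τ a)
    have e : ∀ h, galFld P φ hφ τ c hc hτ (P.psi φ hφ g ⟨algebraMap K (LaurentSeries K) a, h⟩) =
        P.psi φ hφ g' (galFld P φ hφ τ c hc hτ ⟨_, h⟩) := fun h => by
      rw [ha h, AlgHom.commutes, ht, AlgHom.commutes]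
    exact e _
  | add x y hx hy ihx ihy =>
    rw [show (⟨x + y, add_mem hx hy⟩ : P.fld φ) = ⟨x, hx⟩ + ⟨y, hy⟩ from rfl, map_add, map_add,
      map_add, map_add, ihx, ihy]
  | inv x hx ihx =>
    rw [show (⟨x⁻¹, inv_mem hx⟩ : P.fld φ) = (⟨x, hx⟩ : P.fld φ)⁻¹ from rfl, map_inv₀, map_inv₀,
      map_inv₀, map_inv₀, ihx]
  | mul x y hx hy ihx ihy =>
    rw [show (⟨x * y, mul_mem hx hy⟩ : P.fld φ) = ⟨x, hx⟩ * ⟨y, hy⟩ from rfl, map_mul, map_mul,
      map_mul, map_mul, ihx, ihy]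

end FLTAgent.Lowering.P3.Levels
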