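import Fermat.Agent.Lowering.P3.Levels.Conj
import Fermat.Agent.Lowering.P3.Levels.Sheet
import Fermat.Agent.DeligneSerre.Galois.Classes
import Fermat.Agent.EigenReps.Approx
import Fermat.Prelude.Def_AlgebraicCurve_BaseChangeGalois

/-!
# Galois elements and diamonds on the fields of the two groups
-/

set_option autoImplicit false
set_option linter.unusedSectionVars false
set_option linter.style.haveILetI false
set_option maxHeartbeats 1600000
set_option synthInstance.maxHeartbeats 200000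

noncomputable section

open UpperHalfPlane hiding I I_re I_im
open Filter Topology Complex Function FLTAgent.ModEq FLTAgent.GoodModel ModularCurve
open AlgebraicCurve
open scoped MatrixGroups IntermediateField

namespace FLTAgent.Lowering.P3.Levels

open FLTAgent.DeligneSerre

local notation "LL" => AlgebraicClosure ℚ
local notation "GG" => (AlgebraicClosure ℚ ≃ₐ[ℚ] AlgebraicClosure ℚ)

variable {κ : LL →+* ℂ} {M0 N' l : ℕ} [NeZero M0] [NeZero N'] [NeZero l] [NeZero (M0 * N')]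
  [NeZero (N' * l)] [NeZero (M0 * (N' * l))] {P' : Frame κ.range M0 (N' * l)}
  {H : Subgroup SL(2, ℤ)}

local notation "φ₀" => toLL κ
local notation "hφ₀" => toLL_surjective κ

/-- The root of unity of the top level among the algebraic numbers. -/
abbrev topRoot (P' : Frame κ.range M0 (N' * l)) : LLˣ :=
  Units.map (toLL κ : κ.range →* LL) P'.ξ

theorem topRoot_prim (P' : Frame κ.range M0 (N' * l)) :
    IsPrimitiveRoot ((topRoot P' : LLˣ) : LL) (M0 * (N' * l)) :=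
  (isPrimitiveRoot_map (toLL κ) P'.ξ P'.hξ P'.hv).map_of_injective
    (f := Units.coeHom LL) Units.val_injective

/-- `σ` raises the roots of unity of the top level to the power `c`. -/
structure CycPow (P' : Frame κ.range M0 (N' * l)) (σ : GG) (c : ℤ) : Prop where
  unit : IsUnit ((c : ℤ) : ZMod (M0 * (N' * l)))
  map : Units.map ((σ : LL →+* LL) : LL →* LL) (topRoot P') = topRoot P' ^ c

theorem exists_cycPow (P' : Frame κ.range M0 (N' * l)) (σ : GG) : ∃ c, CycPow P' σ c := by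
  have h := topRoot_prim P'
  have hs := h.map_of_injective (f := (σ : LL →+* LL)) σ.injective
  obtain ⟨i, -, hi⟩ := h.eq_pow_of_pow_eq_one hs.pow_eq_one
  refine ⟨(i : ℤ), ?_, Units.ext ?_⟩
  · rw [Int.cast_natCast, ZMod.isUnit_iff_coprime]
    exact (h.pow_iff_coprime (Nat.pos_of_ne_zero (NeZero.ne _)) i).1 (hi ▸ hs)
  · rw [zpow_natCast, Units.val_pow_eq_pow_val, hi]
    rfl

theorem pmGamma_top_le (hH : H = grp0 (M0 * N') l ∨ H = grp1 (M0 * N') l) :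
    pmGamma (M0 * (N' * l)) ≤ H := by
  have h := pmGamma_le_grp1 (M := M0 * (N' * l)) (n := M0 * N') (l := l)
    ⟨l, (mul_assoc M0 N' l).symm⟩ ⟨M0 * N', by ring⟩
  rcases hH with rfl | rfl
  · exact h.trans (grp1_le_grp0 _ _)
  · exact h

theorem T_mem (hH : H = grp0 (M0 * N') l ∨ H = grp1 (M0 * N') l) :
    ModularGroup.T ^ ((M0 * N' : ℕ) : ℤ) ∈ H := by
  have hd : ∀ x : ℤ, (x : ZMod (M0 * N')) = 0 →
      ModularGroup.T ^ x ∈ CongruenceSubgroup.Gamma (M0 * N') := fun x h0 => by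
    simp [CongruenceSubgroup.Gamma_mem, ModularGroup.coe_T_zpow, h0]
  have h1 : ModularGroup.T ^ ((M0 * N' : ℕ) : ℤ) ∈ grp1 (M0 * N') l :=
    ⟨Or.inl (hd _ (by rw [Int.cast_natCast, ZMod.natCast_self])),
      mem_pmGamma1_iff.mpr ⟨by simp [ModularGroup.coe_T_zpow, -zpow_natCast],
        Or.inl (by simp [ModularGroup.coe_T_zpow, -zpow_natCast])⟩⟩
  rcases hH with rfl | rfl
  · exact grp1_le_grp0 _ _ h1
  · exact h1

section Gal

variable (hH : H = grp0 (M0 * N') l ∨ H = grp1 (M0 * N') l)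

include hH in
theorem coeffMap_mem_fldQ (σ : GG) {x : LaurentSeries LL} (hx : x ∈ fldQ P' H) :
    coeffMap (σ : LL →+* LL) x ∈ fldQ P' H := by
  obtain ⟨c, hc⟩ := exists_cycPow P' σ
  obtain ⟨z, hz, hzx⟩ := mem_fldQ.1 hx
  refine mem_fldQ.2 ⟨galFld P' φ₀ hφ₀ (σ : LL →+* LL) c hc.unit hc.map z,
    (P'.mem_fixedFld φ₀ hφ₀).2 fun h hh => ?_, ?_⟩
  · obtain ⟨g, hg⟩ := exists_conjRel hc.unit h⁻¹
    have hgH : g ∈ H := hg.mem ⟨l, (mul_assoc M0 N' l).symm⟩ ⟨M0 * N', by ring⟩ hc.unit hH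
      (inv_mem hh)
    have h1 := galFld_psi P' φ₀ hφ₀ (σ : LL →+* LL) c hc.unit hc.map hg z
    have h2 := (P'.mem_fixedFld φ₀ hφ₀).1 hz _ (inv_mem hgH)
    rw [P'.act_apply, inv_inv] at h2
    rw [h2] at h1
    rw [P'.act_apply, ← h1]
  · rw [coe_galFld, hzx, coeffMap_qExpand]

/-- Galois elements on the coefficients. -/
def galQ (σ : GG) : fldQ P' H ≃+* fldQ P' H where
  toFun x := ⟨_, coeffMap_mem_fldQ hH σ x.2⟩
  invFun x := ⟨_, coeffMap_mem_fldQ hH σ⁻¹ x.2⟩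
  left_inv _ := Subtype.ext (coeffMap_symm_apply σ⁻¹ σ (inv_mul_cancel σ) _)
  right_inv _ := Subtype.ext (coeffMap_symm_apply σ σ⁻¹ (mul_inv_cancel σ) _)
  map_mul' _ _ := Subtype.ext (map_mul _ _ _)
  map_add' _ _ := Subtype.ext (map_add _ _ _)

@[simp] theorem coe_galQ (σ : GG) (x : fldQ P' H) :
    (galQ hH σ x : LaurentSeries LL) = coeffMap (σ : LL →+* LL) (x : LaurentSeries LL) := rfl

/-- A Galois element as a semilinear automorphism. -/
def galQAut (σ : GG) : SemilinearAut LL (fldQ P' H) :=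
  ⟨(galQ hH σ, σ.toRingEquiv), fun a => Subtype.ext (coeffMap_algebraMap (σ : LL →+* LL) a)⟩

theorem galQAut_smul (σ : GG) (x : fldQ P' H) : galQAut (P' := P') hH σ • x = galQ hH σ x := rfl

theorem up_galQ {σ : GG} {c : ℤ} (hc : CycPow P' σ c) (x : fldQ P' H) :
    up H (galQ hH σ x) = galFld P' φ₀ hφ₀ (σ : LL →+* LL) c hc.unit hc.map (up H x) :=
  Subtype.ext (by rw [coe_up, coe_galQ, coe_galFld, coe_up, coeffMap_qExpand])

/-- The field is the fixed field. -/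
def upEquiv : fldQ P' H ≃ₐ[LL] P'.fixedFld φ₀ hφ₀ H :=
  AlgEquiv.ofBijective ((up H).codRestrict (P'.fixedFld φ₀ hφ₀ H).toSubalgebra up_mem)
    ⟨((up H).codRestrict (P'.fixedFld φ₀ hφ₀ H).toSubalgebra up_mem).toRingHom.injective,
      fun z => by
        obtain ⟨x, hx⟩ := exists_up_of_fixed P' (T_mem hH) z.2
        exact ⟨x, Subtype.ext hx⟩⟩

theorem coe_upEquiv (x : fldQ P' H) : (upEquiv hH x : P'.fld φ₀) = up H x := rfl

theorem up_symm (z : P'.fixedFld φ₀ hφ₀ H) :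
    up H ((upEquiv hH).symm z) = (z : P'.fld φ₀) := by
  rw [← coe_upEquiv hH, AlgEquiv.apply_symm_apply]

end Gal

section Diamond

/-- Elements of `Γ₀(l) ∩ ±Γ(n)` normalise the two groups. -/
theorem conj_mem (hH : H = grp0 (M0 * N') l ∨ H = grp1 (M0 * N') l) {g : SL(2, ℤ)}
    (hg : g ∈ grp0 (M0 * N') l) {h : SL(2, ℤ)} (hh : h ∈ H) : g * h * g⁻¹ ∈ H := by
  rcases hH with rfl | rfl
  · exact mul_mem (mul_mem hg hh) (inv_mem hg)
  · refine ⟨(pmGamma_normal _).conj_mem h hh.1 g, ?_⟩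
    obtain ⟨h0, h1⟩ := mem_pmGamma1_iff.mp hh.2
    have g0 : ((g 1 0 : ℤ) : ZMod l) = 0 := CongruenceSubgroup.Gamma0_mem.mp hg.2
    have hd := congrArg (fun z : ℤ => (z : ZMod l))
      (Matrix.det_fin_two (g : Matrix (Fin 2) (Fin 2) ℤ))
    rw [g.det_coe] at hd
    push_cast at hd
    rw [g0, mul_zero, sub_zero] at hd
    refine mem_pmGamma1_iff.mpr ⟨?_, ?_⟩
    · simp [Matrix.SpecialLinearGroup.coe_inv, Matrix.adjugate_fin_two, Matrix.mul_apply,
        Fin.sum_univ_two, g0, h0]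
    · have e : (((g * h * g⁻¹ : SL(2, ℤ)) 1 1 : ℤ) : ZMod l) = ((h 1 1 : ℤ) : ZMod l) := by
        simp [Matrix.SpecialLinearGroup.coe_inv, Matrix.adjugate_fin_two, Matrix.mul_apply,
          Fin.sum_univ_two, g0, h0]
        linear_combination -((h 1 1 : ℤ) : ZMod l) * hd
      rwa [e]

variable (hH : H = grp0 (M0 * N') l ∨ H = grp1 (M0 * N') l)

include hH in
theorem psi_up_mem {g : SL(2, ℤ)} (hg : g ∈ grp0 (M0 * N') l) (x : fldQ P' H) :
    P'.psi φ₀ hφ₀ g (up H x) ∈ P'.fixedFld φ₀ hφ₀ H := by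
  refine (P'.mem_fixedFld φ₀ hφ₀).2 fun h hh => ?_
  rw [P'.act_apply, P'.psi_psi,
    show g * h⁻¹ = g * h⁻¹ * g⁻¹ * g by rw [inv_mul_cancel_right], ← P'.psi_psi,
    psi_up_of_mem (conj_mem hH hg (inv_mem hh))]

/-- The diamond of an element of `Γ₀(l) ∩ ±Γ(n)`. -/
def dQ {g : SL(2, ℤ)} (hg : g ∈ grp0 (M0 * N') l) : fldQ P' H ≃ₐ[LL] fldQ P' H :=
  AlgEquiv.ofAlgHom
    ((upEquiv hH).symm.toAlgHom.comp (((P'.psi φ₀ hφ₀ g).comp (up H)).codRestrict
      (P'.fixedFld φ₀ hφ₀ H).toSubalgebra (psi_up_mem hH hg)))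
    ((upEquiv hH).symm.toAlgHom.comp (((P'.psi φ₀ hφ₀ g⁻¹).comp (up H)).codRestrict
      (P'.fixedFld φ₀ hφ₀ H).toSubalgebra (psi_up_mem hH (inv_mem hg))))
    (AlgHom.ext fun x => (upEquiv hH).injective (Subtype.ext (by
      rw [coe_upEquiv, coe_upEquiv]
      show up H ((upEquiv hH).symm ⟨P'.psi φ₀ hφ₀ g (up H ((upEquiv hH).symm
        ⟨P'.psi φ₀ hφ₀ g⁻¹ (up H x), psi_up_mem hH (inv_mem hg) x⟩)), _⟩) = up H x
      rw [up_symm]
      show P'.psi φ₀ hφ₀ g _ = _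
      rw [up_symm]
      show P'.psi φ₀ hφ₀ g (P'.psi φ₀ hφ₀ g⁻¹ (up H x)) = _
      rw [P'.psi_psi, inv_mul_cancel, P'.psi_one])))
    (AlgHom.ext fun x => (upEquiv hH).injective (Subtype.ext (by
      rw [coe_upEquiv, coe_upEquiv]
      show up H ((upEquiv hH).symm ⟨P'.psi φ₀ hφ₀ g⁻¹ (up H ((upEquiv hH).symm
        ⟨P'.psi φ₀ hφ₀ g (up H x), psi_up_mem hH hg x⟩)), _⟩) = up H x
      rw [up_symm]
      show P'.psi φ₀ hφ₀ g⁻¹ _ = _
      rw [up_symm]
      show P'.psi φ₀ hφ₀ g⁻¹ (P'.psi φ₀ hφ₀ g (up H x)) = _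
      rw [P'.psi_psi, mul_inv_cancel, P'.psi_one])))

theorem up_dQ {g : SL(2, ℤ)} (hg : g ∈ grp0 (M0 * N') l) (x : fldQ P' H) :
    up H (dQ hH hg x) = P'.psi φ₀ hφ₀ g (up H x) :=
  up_symm hH ⟨_, psi_up_mem hH hg x⟩

theorem dQ_eq_self {g : SL(2, ℤ)} (hg : g ∈ grp0 (M0 * N') l) (hgH : g ∈ H) (x : fldQ P' H) :
    dQ hH hg x = x :=
  (upEquiv hH).injective (Subtype.ext (by
    rw [coe_upEquiv, coe_upEquiv, up_dQ, psi_up_of_mem hgH]))

variable [Fact l.Prime] (hnl : (M0 * N').Coprime l)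

theorem galQ_wInv {σ : GG} {c : ℤ} (hc : CycPow P' σ c) {h : SL(2, ℤ)}
    (hh : h ∈ grp0 (M0 * N') l) (hrel : ConjRel (M0 * (N' * l)) c ModularGroup.S (h * ModularGroup.S))
    (x : fldQ P' H) :
    galQ hH σ (wInv hnl hH x) = wInv hnl hH (dQ hH hh (galQ hH σ x)) := by
  refine Subtype.ext ?_
  rw [coe_galQ, coe_wInv, coe_wInv, up_dQ, up_galQ hH hc,
    ← coe_galFld P' φ₀ hφ₀ (σ : LL →+* LL) c hc.unit hc.map,
    galFld_psi P' φ₀ hφ₀ (σ : LL →+* LL) c hc.unit hc.map hrel, P'.psi_psi]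

end Diamond

end FLTAgent.Lowering.P3.Levels
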